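/-
# RIBET row 38, WALL-p, (S4)/EIS: leaf SPLIT-CONST, Mathlib-only core   (helper703)

`u ^ (2 n) = w ^ p` with `p` an odd prime not dividing `n`  ⟹  `u` is a `p`-th power of an
element of the multiplicative group generated by `u` and `w` (Bezout).  Used with
`u = lc (w_N f) / lc f`, `n = ℓ + 1 - a_ℓ`.

Also: the leading coefficient of Laurent series over a field as a monoid-with-zero
homomorphism, and its behaviour under coefficient maps.
-/
import Mathlib

set_option autoImplicit false

namespace Fermat.Agent.Ribet.H703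

/-- Bezout in a commutative group with zero: `u ^ m = w ^ p`, `gcd(m, p) = 1` ⟹
`u = (w ^ α * u ^ β) ^ p`. -/
theorem exists_zpow_eq_of_coprime {E : Type*} [CommGroupWithZero E] {u w : E} (hu : u ≠ 0)
    {m p : ℤ} (hcop : IsCoprime m p) (h : u ^ m = w ^ p) :
    ∃ α β : ℤ, u = (w ^ α * u ^ β) ^ p := by
  obtain ⟨α, β, hαβ⟩ := hcop
  refine ⟨α, β, ?_⟩
  have h1 : u = u ^ (α * m + β * p) := by rw [hαβ, zpow_one]
  rw [mul_zpow, ← zpow_mul, ← zpow_mul]
  calc u = u ^ (α * m + β * p) := h1
    _ = u ^ (m * α) * u ^ (β * p) := by rw [zpow_add₀ hu, mul_comm α m]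
    _ = (u ^ m) ^ α * u ^ (β * p) := by rw [zpow_mul]
    _ = (w ^ p) ^ α * u ^ (β * p) := by rw [h]
    _ = w ^ (α * p) * u ^ (β * p) := by rw [← zpow_mul, mul_comm p α]

/-- The form used by SPLIT-CONST: `p` an odd prime, `p ∤ n`, `u ^ (2 n) = w ^ p`. -/
theorem exists_zpow_eq_of_two_mul {E : Type*} [CommGroupWithZero E] {u w : E} (hu : u ≠ 0)
    {p : ℕ} (hp : p.Prime) (hp2 : p ≠ 2) {n : ℤ} (hn : ¬ (p : ℤ) ∣ n)
    (h : u ^ (2 * n) = w ^ (p : ℤ)) :
    ∃ α β : ℤ, u = (w ^ α * u ^ β) ^ p := by
  have hpp : Prime (p : ℤ) := Nat.prime_iff_prime_int.mp hp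
  have h2n : ¬ (p : ℤ) ∣ 2 * n := by
    intro hd
    rcases hpp.dvd_or_dvd hd with h2 | h2
    · have : p ∣ 2 := by exact_mod_cast h2
      exact hp2 ((Nat.prime_dvd_prime_iff_eq hp Nat.prime_two).mp this)
    · exact hn h2
  have hcop : IsCoprime (2 * n) (p : ℤ) :=
    (IsCoprime.symm ((Prime.coprime_iff_not_dvd hpp).mpr h2n))
  obtain ⟨α, β, hαβ⟩ := exists_zpow_eq_of_coprime hu hcop h
  exact ⟨α, β, by rw [← zpow_natCast]; exact hαβ⟩

section LC

open HahnSeries

variable {K : Type*} [Field K]

/-- The leading coefficient of a Laurent series over a field, as a monoid-with-zero hom. -/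
noncomputable def lcHom : LaurentSeries K →*₀ K where
  toFun x := x.leadingCoeff
  map_zero' := leadingCoeff_zero
  map_one' := leadingCoeff_one
  map_mul' x y := leadingCoeff_mul x y

@[simp] theorem lcHom_apply (x : LaurentSeries K) : lcHom x = x.leadingCoeff := rfl

theorem lcHom_C (c : K) : lcHom (HahnSeries.C c : LaurentSeries K) = c := by
  rw [lcHom_apply]
  exact leadingCoeff_of_single

theorem lcHom_ne_zero {x : LaurentSeries K} (hx : x ≠ 0) : lcHom x ≠ 0 :=
  leadingCoeff_ne_zero.mpr hx

/-- The leading coefficient commutes with an injective map on the coefficients. -/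
theorem leadingCoeff_map_of_injective {L : Type*} [Field L] (σ : K →+* L)
    (x : LaurentSeries K) :
    (x.map σ : LaurentSeries L).leadingCoeff = σ x.leadingCoeff := by
  rcases eq_or_ne x 0 with rfl | hx
  · have h0 : ((0 : LaurentSeries K).map σ : LaurentSeries L) = 0 := by
      ext n
      simp
    rw [h0, leadingCoeff_zero, leadingCoeff_zero, map_zero]
  · have hinj : Function.Injective σ := σ.injective
    have hsupp : (x.map σ : LaurentSeries L).support = x.support := by
      ext n
      simp only [mem_support, HahnSeries.map_coeff, ne_eq]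
      rw [← map_zero σ, hinj.eq_iff]
    have hne : (x.map σ : LaurentSeries L) ≠ 0 := by
      intro h0
      apply hx
      ext n
      have := congrArg (fun y : LaurentSeries L => y.coeff n) h0
      simp only [HahnSeries.map_coeff, coeff_zero] at this
      rw [← map_zero σ] at this
      simpa using hinj this
    have hord : (x.map σ : LaurentSeries L).order = x.order := by
      rw [order_of_ne hne, order_of_ne hx]
      congr 1
    rw [leadingCoeff_eq, leadingCoeff_eq, hord, HahnSeries.map_coeff]

end LC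

end Fermat.Agent.Ribet.H703
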