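/-
# RIBET row 38, WALL-p, (S4)/EIS: leaf SPLIT-CONST   (helper703)

Memo: `coord/RIBET-NODE-helper703.md` §B.  Frame: `FF N = ℚ̄(X₀(N)) ⊆ ℚ̄((t))`, Galois acting on
the coefficients (`H528.gal`), Fricke involution `H528.wF`, Hecke norm `S29.H395.heckeNorm`
(`t`-expansion `S37.H697.knorm`), `lcF` = leading coefficient of the `t`-expansion.

**Statement.**  `f` a Kummer generator of a class `x ∈ J₀(N)[p]` (`div f = p·D`), `p` odd,
`T_ℓ x = a·x` with `p ∤ a - (ℓ+1)` (non-Eisenstein at ONE prime `ℓ ∤ N`), `f` fixed by a set `H` of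
Galois automorphisms.  Then the ratio of the leading coefficients of `f` at the cusps `0` and `∞`
is a `p`-th power of an `H`-fixed constant:
    `lcF (w_N f) = lcF f · v ^ p`,  `σ v = v` for `σ ∈ H`.
(The Kummer pairing of a non-Eisenstein eigenclass with the cuspidal class `(0) - (∞)` is trivial.)

**Use.**  For `t` in the toric line (fixed by `I₁ = {σ ∈ I, χ(σ) = 1}`): a Kummer generator `f_t`
over the tame field `K₁ = ℚ̄^{I₁}` which is a `p`-th power up to constants in the completions at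
`V∞` and `V₀ = V∞ ∘ w_N` has constants `c∞ ≡ lcF f_t`, `c₀ ≡ lcF (w_N f_t)` modulo `K₁ˣᵖ`; by the
theorem `c₀ / c∞ ∈ K₁ˣᵖ`, so after scaling by ONE constant `f_t` is a `p`-th power in BOTH
completions ("strongly split"), i.e. both components split completely in `K₁(X)(f_t^{1/p})`.

Proof.  `heckeNorm f = c · f ^ a · g ^ p` with `lcF g = 1` (Kummer dictionary, `T_ℓ x = a x`);
`c, g` are `H`-fixed by the normalisation; `lcF (heckeNorm f)² = (lcF f)^{2(ℓ+1)}` (product formula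
for `knorm`); the same at the cusp `0` by FRICKE–HECKE (`heckeNorm ∘ w_N = w_N ∘ heckeNorm`);
divide and apply Bezout with `gcd(2(ℓ+1-a), p) = 1`.
-/
import Fermat.Agent.Ribet.H703.SplitConstCore
import Fermat.Agent.S37.H697.Kronecker
import Fermat.Agent.S29.H395.KummerCorr
import Fermat.Agent.Lib.FF460.Hecke
import Fermat.Agent.A2.H528.FrickeGalois
import Fermat.Agent.Lib.RR.H383.FF1OfFinite

set_option autoImplicit false
set_option linter.style.haveILetI false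
set_option linter.unusedSectionVars false
set_option synthInstance.maxHeartbeats 400000
set_option maxHeartbeats 1000000

noncomputable section

namespace Fermat.Agent.Ribet.H703

open AlgebraicCurve ModularCurve HahnSeries
open Fermat.Agent.S24 Fermat.Agent.A2.H528 Fermat.Agent.S29.H395 Fermat.Agent.S37
  Fermat.Agent.S37.H697

/-! ## Formal part: leading coefficients of `qExpand`, `tw`, `kdet`, `knorm` -/

section Formal

variable {K : Type*} [Field K]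

theorem order_leadingCoeff_of_coeff {x : LaurentSeries K} {n : ℤ} (hn : x.coeff n ≠ 0)
    (hlt : ∀ m < n, x.coeff m = 0) : x.order = n ∧ x.leadingCoeff = x.coeff n := by
  have hx : x ≠ 0 := fun h => hn (by rw [h, coeff_zero])
  have h1 : x.order ≤ n := order_le_of_coeff_ne_zero hn
  have h2 : n ≤ x.order := by
    by_contra hcon
    rw [not_le] at hcon
    exact coeff_order_eq_zero.not.mpr hx (hlt _ hcon)
  have h3 : x.order = n := le_antisymm h1 h2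
  exact ⟨h3, by rw [leadingCoeff_eq, h3]⟩

theorem leadingCoeff_qExpand (n : ℕ) [NeZero n] (f : LaurentSeries K) :
    (qExpand K n f).leadingCoeff = f.leadingCoeff := by
  rcases eq_or_ne f 0 with rfl | hf
  · rw [map_zero]
  · have hn0 : (0 : ℤ) < n := by exact_mod_cast Nat.pos_of_ne_zero (NeZero.ne n)
    have h := order_leadingCoeff_of_coeff (x := qExpand K n f) (n := (n : ℤ) * f.order)
      (by rw [qExpand_coeff_mul]; exact coeff_order_eq_zero.not.mpr hf)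
      (by
        intro m hm
        by_cases hd : (n : ℤ) ∣ m
        · obtain ⟨k, rfl⟩ := hd
          rw [qExpand_coeff_mul]
          exact coeff_eq_zero_of_lt_order (lt_of_mul_lt_mul_left hm hn0.le)
        · exact qExpand_coeff_of_not_dvd n f hd)
    rw [h.2, qExpand_coeff_mul, leadingCoeff_eq]

theorem zpw_ne_zero (ℓ : ℕ) {ζ : K} (hζ : ζ ≠ 0) (n : ℤ) : H340.zpw ℓ ζ n ≠ 0 := by
  unfold H340.zpw
  exact pow_ne_zero _ hζ

theorem leadingCoeff_tw (ℓ : ℕ) {ζ : K} (hζ : ζ ≠ 0) (f : LaurentSeries K) :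
    (H340.tw ℓ ζ f).leadingCoeff = H340.zpw ℓ ζ f.order * f.leadingCoeff := by
  rcases eq_or_ne f 0 with rfl | hf
  · have h0 : H340.tw ℓ ζ (0 : LaurentSeries K) = 0 := by
      ext n
      rw [H340.tw_coeff, coeff_zero, mul_zero]
    rw [h0, leadingCoeff_zero, mul_zero]
  · have h := order_leadingCoeff_of_coeff (x := H340.tw ℓ ζ f) (n := f.order)
      (by rw [H340.tw_coeff]; exact mul_ne_zero (zpw_ne_zero ℓ hζ _) (coeff_order_eq_zero.not.mpr hf))
      (by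
        intro m hm
        rw [H340.tw_coeff, coeff_eq_zero_of_lt_order hm, mul_zero])
    rw [h.2, H340.tw_coeff, leadingCoeff_eq]

/-- The product of the twisting constants squares to `1`. -/
theorem prod_zpw_sq (ℓ : ℕ) [NeZero ℓ] {ζ : K} (hζ : ζ ^ ℓ = 1) (n : ℤ) :
    (∏ b : Fin ℓ, H340.zpw ℓ (ζ ^ (b : ℕ)) n) ^ 2 = 1 := by
  set r : ℕ := (n % (ℓ : ℤ)).toNat with hr
  have h1 : ∀ b : Fin ℓ, H340.zpw ℓ (ζ ^ (b : ℕ)) n = ζ ^ ((b : ℕ) * r) := by
    intro b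
    unfold H340.zpw
    rw [← pow_mul]
  rw [Finset.prod_congr rfl (fun b _ => h1 b),
    Fin.prod_univ_eq_prod_range (fun b : ℕ => ζ ^ (b * r)) ℓ, Finset.prod_pow_eq_pow_sum,
    ← pow_mul, ← Finset.sum_mul, mul_assoc, mul_comm r 2, ← mul_assoc,
    Finset.sum_range_id_mul_two, mul_assoc, pow_mul, hζ, one_pow]

theorem leadingCoeff_kdet_sq (ℓ : ℕ) [NeZero ℓ] {ζ : K} (hζ : IsPrimitiveRoot ζ ℓ)
    (f : LaurentSeries K) :
    (kdet ℓ f).leadingCoeff ^ 2 = f.leadingCoeff ^ (2 * ℓ) := by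
  have hζ0 : ζ ≠ 0 := hζ.ne_zero (NeZero.ne ℓ)
  have h : (qExpand K ℓ (kdet ℓ f)).leadingCoeff
      = (∏ b : Fin ℓ, H340.tw ℓ (ζ ^ (b : ℕ)) f).leadingCoeff :=
    congrArg (fun y : LaurentSeries K => y.leadingCoeff) (qExpand_kdet_eq_prod ℓ hζ f)
  rw [leadingCoeff_qExpand] at h
  have h2 : (∏ b : Fin ℓ, H340.tw ℓ (ζ ^ (b : ℕ)) f).leadingCoeff
      = ∏ b : Fin ℓ, (H340.tw ℓ (ζ ^ (b : ℕ)) f).leadingCoeff :=
    map_prod (lcHom (K := K)) _ _
  rw [h2, Finset.prod_congr rfl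
    (fun (b : Fin ℓ) _ => leadingCoeff_tw ℓ (pow_ne_zero (b : ℕ) hζ0) f),
    Finset.prod_mul_distrib,
    Finset.prod_const, Finset.card_univ, Fintype.card_fin] at h
  rw [h, mul_pow, prod_zpw_sq ℓ hζ.pow_eq_one, one_mul, ← pow_mul, mul_comm]

/-- **Leading coefficient of the Kronecker norm**, up to sign. -/
theorem leadingCoeff_knorm_sq (ℓ : ℕ) [NeZero ℓ] {ζ : K} (hζ : IsPrimitiveRoot ζ ℓ)
    (f : LaurentSeries K) :
    (knorm ℓ f).leadingCoeff ^ 2 = f.leadingCoeff ^ (2 * (ℓ + 1)) := by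
  rw [knorm, leadingCoeff_mul, mul_pow, leadingCoeff_qExpand, leadingCoeff_kdet_sq ℓ hζ,
    ← _root_.pow_add]
  congr 1
  ring

end Formal

/-! ## The frame `FF N ⊆ ℚ̄((t))` -/

section Frame

variable (N : ℕ) [NeZero N]

/-- The leading coefficient of the `t`-expansion of a modular function. -/
def lcF : FF N →*₀ Kbar where
  toFun f := (f : LaurentSeries Kbar).leadingCoeff
  map_zero' := leadingCoeff_zero
  map_one' := leadingCoeff_one
  map_mul' f g := leadingCoeff_mul (f : LaurentSeries Kbar) (g : LaurentSeries Kbar)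

theorem lcF_apply (f : FF N) : lcF N f = (f : LaurentSeries Kbar).leadingCoeff := rfl

theorem lcF_ne_zero {f : FF N} (hf : f ≠ 0) : lcF N f ≠ 0 := by
  rw [lcF_apply]
  exact leadingCoeff_ne_zero.mpr (fun h => hf (Subtype.ext h))

theorem lcF_algebraMap (c : Kbar) : lcF N (algebraMap Kbar (FF N) c) = c := by
  rw [lcF_apply]
  show (algebraMap Kbar (LaurentSeries Kbar) c).leadingCoeff = c
  rw [algebraMap_laurentSeries_eq_single]
  exact leadingCoeff_of_single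

theorem lcF_gal (σ : Kbar ≃ₐ[ℚ] Kbar) (f : FF N) : lcF N (gal N σ f) = σ (lcF N f) := by
  rw [lcF_apply, lcF_apply]
  exact leadingCoeff_map_of_injective (σ : Kbar →+* Kbar) (f : LaurentSeries Kbar)

variable (ℓ : ℕ) [NeZero ℓ]

theorem coe_heckeNorm (hℓ : ℓ.Prime) (hℓN : ¬ ℓ ∣ N) (f : FF N) :
    ((heckeNorm N ℓ f : FF N) : LaurentSeries Kbar) = knorm ℓ (f : LaurentSeries Kbar) :=
  coe_normAlong_heckeBeta N ℓ hℓ hℓN f

/-- The Hecke norm commutes with the Galois action on the coefficients. -/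
theorem gal_heckeNorm (hℓ : ℓ.Prime) (hℓN : ¬ ℓ ∣ N) (σ : Kbar ≃ₐ[ℚ] Kbar) (f : FF N) :
    gal N σ (heckeNorm N ℓ f) = heckeNorm N ℓ (gal N σ f) := by
  apply Subtype.ext
  rw [coe_heckeNorm N ℓ hℓ hℓN]
  show coeffMap (σ : Kbar →+* Kbar) ((heckeNorm N ℓ f : FF N) : LaurentSeries Kbar)
    = knorm ℓ (coeffMap (σ : Kbar →+* Kbar) (f : LaurentSeries Kbar))
  rw [coe_heckeNorm N ℓ hℓ hℓN, knorm_coeffMap]

/-- Leading coefficient of the Hecke norm, up to sign. -/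
theorem lcF_heckeNorm_sq (hℓ : ℓ.Prime) (hℓN : ¬ ℓ ∣ N) (f : FF N) :
    lcF N (heckeNorm N ℓ f) ^ 2 = lcF N f ^ (2 * (ℓ + 1)) := by
  haveI : NeZero ((ℓ : ℕ) : ℚ) := ⟨by exact_mod_cast hℓ.ne_zero⟩
  obtain ⟨ζ, hζ⟩ := HasEnoughRootsOfUnity.exists_primitiveRoot Kbar ℓ
  rw [lcF_apply, lcF_apply, coe_heckeNorm N ℓ hℓ hℓN]
  exact leadingCoeff_knorm_sq ℓ hζ _

end Frame

/-! ## The Kummer relation of an eigenclass and SPLIT-CONST -/

section Main

variable (N : ℕ) [NeZero N]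

/-- A root of unity of `FF N` with leading coefficient `1` is `1`. -/
theorem eq_one_of_pow_eq_one {ρ : FF N} {p : ℕ} (hp : p ≠ 0) (h : ρ ^ p = 1)
    (hlc : lcF N ρ = 1) : ρ = 1 := by
  have halg : IsAlgebraic Kbar ρ := by
    refine ⟨Polynomial.X ^ p - Polynomial.C (1 : Kbar),
      Polynomial.X_pow_sub_C_ne_zero (Nat.pos_of_ne_zero hp) 1, ?_⟩
    rw [map_sub, map_pow, Polynomial.aeval_X, Polynomial.aeval_C, map_one, h, sub_self]
  obtain ⟨c, hc⟩ := exists_algebraMap_eq_of_isAlgebraic halg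
  rw [← hc, lcF_algebraMap] at hlc
  rw [← hc, hlc, map_one]

variable (p ℓ : ℕ) [NeZero ℓ]

/-- **Kummer relation of an eigenclass**: `div f = p·D`, `T_ℓ [D] = a·[D]` ⟹
`heckeNorm f = c · f ^ a · g ^ p` with `lcF g = 1`. -/
theorem exists_kummer_rel (hℓ : ℓ.Prime) (f : FF N) (hf0 : f ≠ 0)
    (D : Divisor.degZero (K := Kbar) (F := FF N))
    (hD : ∀ v : Place Kbar (FF N), v.ord f = (p : ℤ) * (D : Divisor Kbar (FF N)) v)
    (a : ℤ) (hT : heckeOperatorBar N ⟨ℓ, hℓ⟩ (Pic0.mk D) = a • Pic0.mk D) :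
    ∃ (c : Kbar) (g : FF N), c ≠ 0 ∧ g ≠ 0 ∧ lcF N g = 1 ∧
      heckeNorm N ℓ f = algebraMap Kbar (FF N) c * f ^ a * g ^ p := by
  have hHI : HeckeInputsAlong Kbar N ℓ := Fermat.Agent.Lib.FF460.heckeInputsAlong_bar N ℓ
  obtain ⟨D', hD'1, hD'2⟩ := heckeOperatorBar_mk N ⟨ℓ, hℓ⟩ hHI D
  have hN : ∀ v : Place Kbar (FF N),
      (p : ℤ) * (D' : Divisor Kbar (FF N)) v = v.ord (heckeNorm N ℓ f) :=
    hD'2 p f hf0 (fun v => (hD v).symm)
  have hmk : Pic0.mk D' = Pic0.mk (a • D) := by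
    rw [← hD'1, hT]
    rfl
  obtain ⟨g₀, hg₀, hg₀D⟩ := mk_eq_mk_iff.mp hmk
  have hHN0 : heckeNorm N ℓ f ≠ 0 := heckeNorm_ne_zero N ℓ hHI hf0
  have hfa : f ^ a ≠ 0 := zpow_ne_zero a hf0
  have hgp : g₀ ^ p ≠ 0 := pow_ne_zero p hg₀
  set Φ : FF N := heckeNorm N ℓ f * (f ^ a)⁻¹ * (g₀ ^ p)⁻¹ with hΦ
  have hΦ0 : Φ ≠ 0 := mul_ne_zero (mul_ne_zero hHN0 (inv_ne_zero hfa)) (inv_ne_zero hgp)
  have hord : ∀ v : Place Kbar (FF N), v.ord Φ = 0 := by
    intro v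
    have h1 := hg₀D v
    rw [AddSubgroup.coe_zsmul, Finsupp.smul_apply, smul_eq_mul] at h1
    rw [hΦ, Place.ord_mul _ (mul_ne_zero hHN0 (inv_ne_zero hfa)) (inv_ne_zero hgp),
      Place.ord_mul _ hHN0 (inv_ne_zero hfa), Place.ord_inv, Place.ord_inv, Place.ord_zpow,
      ← zpow_natCast, Place.ord_zpow, ← hN v, hD v, ← h1]
    ring
  haveI := Fermat.Agent.Lib.RR.H804.finiteDimensional_jF N
  obtain ⟨c₀, hc₀⟩ := Fermat.Agent.Lib.RR.H383.eq_algebraMap_of_forall_ord_eq_zero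
    (Fermat.Agent.Lib.RR.H804.transcendental_jF N) hord
  have hc₀0 : c₀ ≠ 0 := by
    rintro rfl
    rw [map_zero] at hc₀
    exact hΦ0 hc₀.symm
  have hrel₀ : heckeNorm N ℓ f = algebraMap Kbar (FF N) c₀ * f ^ a * g₀ ^ p := by
    rw [hc₀, hΦ]
    field_simp
  have hlam : lcF N g₀ ≠ 0 := lcF_ne_zero N hg₀
  refine ⟨c₀ * lcF N g₀ ^ p, algebraMap Kbar (FF N) (lcF N g₀)⁻¹ * g₀,
    mul_ne_zero hc₀0 (pow_ne_zero _ hlam), ?_, ?_, ?_⟩
  · refine mul_ne_zero ?_ hg₀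
    rw [Ne, map_eq_zero]
    exact inv_ne_zero hlam
  · rw [map_mul, lcF_algebraMap, inv_mul_cancel₀ hlam]
  · have hA : algebraMap Kbar (FF N) (lcF N g₀) ≠ 0 := by
      rw [Ne, map_eq_zero]
      exact hlam
    rw [hrel₀, map_mul (algebraMap Kbar (FF N)), map_pow (algebraMap Kbar (FF N)), mul_pow,
      map_inv₀ (algebraMap Kbar (FF N)), inv_pow]
    field_simp

/-- **SPLIT-CONST** (conditional on FRICKE–HECKE at `ℓ`).  See the header. -/
theorem splitConst_of_frickeHecke (hp : p.Prime) (hp2 : p ≠ 2) (hℓ : ℓ.Prime) (hℓN : ¬ ℓ ∣ N)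
    (hFH : ∀ f : FF N, heckeNorm N ℓ (wF N f) = wF N (heckeNorm N ℓ f))
    (f : FF N) (hf0 : f ≠ 0)
    (D : Divisor.degZero (K := Kbar) (F := FF N))
    (hD : ∀ v : Place Kbar (FF N), v.ord f = (p : ℤ) * (D : Divisor Kbar (FF N)) v)
    (a : ℤ) (hT : heckeOperatorBar N ⟨ℓ, hℓ⟩ (Pic0.mk D) = a • Pic0.mk D)
    (hNE : ¬ (p : ℤ) ∣ a - (ℓ + 1))
    (H : Set (Kbar ≃ₐ[ℚ] Kbar)) (hH : ∀ σ ∈ H, gal N σ f = f) :
    ∃ v : Kbar, v ≠ 0 ∧ (∀ σ ∈ H, σ v = v) ∧ lcF N (wF N f) = lcF N f * v ^ p := by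
  obtain ⟨c, g, hc, hg, hlg, hrel⟩ := exists_kummer_rel N p ℓ hℓ f hf0 D hD a hT
  have hWf0 : wF N f ≠ 0 := by
    rw [Ne, map_eq_zero]
    exact hf0
  have hWg0 : wF N g ≠ 0 := by
    rw [Ne, map_eq_zero]
    exact hg
  set A : Kbar := lcF N f with hA
  set B : Kbar := lcF N (wF N f) with hB
  set G : Kbar := lcF N (wF N g) with hG
  have hA0 : A ≠ 0 := lcF_ne_zero N hf0
  have hB0 : B ≠ 0 := lcF_ne_zero N hWf0
  have hG0 : G ≠ 0 := lcF_ne_zero N hWg0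
  -- leading coefficients at the cusp `∞`
  have e1 : lcF N (heckeNorm N ℓ f) = c * A ^ a := by
    rw [hrel, map_mul, map_mul, lcF_algebraMap, map_zpow₀, map_pow, hlg, one_pow, mul_one]
  have e1sq : A ^ (2 * (ℓ + 1)) = c ^ 2 * (A ^ a) ^ 2 := by
    rw [← lcF_heckeNorm_sq N ℓ hℓ hℓN f, e1, mul_pow]
  -- leading coefficients at the cusp `0`
  have hrelW : heckeNorm N ℓ (wF N f)
      = algebraMap Kbar (FF N) c * wF N f ^ a * wF N g ^ p := by
    rw [hFH, hrel, map_mul, map_mul, AlgEquiv.commutes, map_zpow₀, map_pow]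
  have e2 : lcF N (heckeNorm N ℓ (wF N f)) = c * B ^ a * G ^ p := by
    rw [hrelW, map_mul, map_mul, lcF_algebraMap, map_zpow₀, map_pow]
  have e2sq : B ^ (2 * (ℓ + 1)) = c ^ 2 * (B ^ a) ^ 2 * (G ^ 2) ^ p := by
    rw [← lcF_heckeNorm_sq N ℓ hℓ hℓN (wF N f), e2, mul_pow, mul_pow, ← pow_mul, ← pow_mul,
      mul_comm p 2]
  -- the ratio
  have hAa : A ^ a ≠ 0 := zpow_ne_zero a hA0
  have hBa : B ^ a ≠ 0 := zpow_ne_zero a hB0
  have hu0 : B / A ≠ 0 := div_ne_zero hB0 hA0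
  have key : (B / A) ^ (2 * (((ℓ : ℤ) + 1) - a)) = (G ^ 2) ^ (p : ℤ) := by
    have h1 : (B / A) ^ (2 * (((ℓ : ℤ) + 1) - a))
        = (B / A) ^ ((2 * (ℓ + 1) : ℕ) : ℤ) * (((B / A) ^ a) ^ 2)⁻¹ := by
      rw [← zpow_natCast ((B / A) ^ a) 2, ← zpow_mul, ← zpow_neg, ← zpow_add₀ hu0]
      congr 1
      push_cast
      ring
    rw [h1, zpow_natCast, zpow_natCast, div_pow, div_zpow, div_pow, e1sq, e2sq]
    have hc2 : c ^ 2 ≠ 0 := pow_ne_zero 2 hc
    have hAa2 : (A ^ a) ^ 2 ≠ 0 := pow_ne_zero 2 hAa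
    have hBa2 : (B ^ a) ^ 2 ≠ 0 := pow_ne_zero 2 hBa
    field_simp
  have hn : ¬ (p : ℤ) ∣ ((ℓ : ℤ) + 1) - a := by
    intro hd
    apply hNE
    have : a - ((ℓ : ℤ) + 1) = -(((ℓ : ℤ) + 1) - a) := by ring
    rw [this]
    exact (dvd_neg).mpr hd
  obtain ⟨α, β, hαβ⟩ := exists_zpow_eq_of_two_mul hu0 hp hp2 hn key
  refine ⟨(G ^ 2) ^ α * (B / A) ^ β,
    mul_ne_zero (zpow_ne_zero α (pow_ne_zero 2 hG0)) (zpow_ne_zero β hu0), ?_, ?_⟩
  · -- rationality
    intro σ hσ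
    have hσf : gal N σ f = f := hH σ hσ
    have hσA : σ A = A := by rw [hA, ← lcF_gal, hσf]
    have hσB : σ B = B := by rw [hB, ← lcF_gal, ← wF_gal, hσf]
    -- `c` and `g` are fixed
    have hrelσ : heckeNorm N ℓ f
        = algebraMap Kbar (FF N) (σ c) * f ^ a * gal N σ g ^ p := by
      have h1 := congrArg (gal N σ) hrel
      rw [gal_heckeNorm N ℓ hℓ hℓN, hσf, map_mul, map_mul, gal_algebraMap, map_zpow₀, map_pow,
        hσf] at h1
      exact h1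
    have hlgσ : lcF N (gal N σ g) = 1 := by rw [lcF_gal, hlg, map_one]
    have hσc : σ c = c := by
      have h1 : lcF N (heckeNorm N ℓ f) = σ c * A ^ a := by
        rw [hrelσ, map_mul, map_mul, lcF_algebraMap, map_zpow₀, map_pow, hlgσ, one_pow, mul_one]
      rw [e1] at h1
      exact (mul_right_cancel₀ hAa h1).symm
    have hgp : gal N σ g ^ p = g ^ p := by
      have h1 : algebraMap Kbar (FF N) c * f ^ a * gal N σ g ^ p
          = algebraMap Kbar (FF N) c * f ^ a * g ^ p := by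
        rw [← hrel, hrelσ, hσc]
      have h2 : algebraMap Kbar (FF N) c * f ^ a ≠ 0 := by
        refine mul_ne_zero ?_ (zpow_ne_zero a hf0)
        rw [Ne, map_eq_zero]
        exact hc
      exact mul_left_cancel₀ h2 h1
    have hσg : gal N σ g = g := by
      have hρ : (gal N σ g * g⁻¹) ^ p = 1 := by
        rw [mul_pow, hgp, inv_pow, mul_inv_cancel₀ (pow_ne_zero p hg)]
      have hρlc : lcF N (gal N σ g * g⁻¹) = 1 := by
        rw [map_mul, map_inv₀, hlgσ, hlg, inv_one, mul_one]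
      have := eq_one_of_pow_eq_one N hp.ne_zero hρ hρlc
      rw [mul_inv_eq_one₀ hg] at this
      exact this
    have hσG : σ G = G := by rw [hG, ← lcF_gal, ← wF_gal, hσg]
    rw [map_mul, map_zpow₀, map_zpow₀, map_pow, map_div₀, hσA, hσB, hσG]
  · -- the identity
    have h1 : B = A * (B / A) := by field_simp
    rw [← hαβ]
    exact h1

end Main

end Fermat.Agent.Ribet.H703
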