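/-
# RIBET row 38, WALL-p, (S4)/EIS: leaf NORM-CONST   (helper703)

Frame: `FF N = ℚ̄(X₀(N)) ⊆ ℚ̄((t))`, level `N = M * p`, degeneracy maps
`α = heckeAlphaBar ℚ̄ M p`, `β = heckeBetaBar ℚ̄ M p : FF M → FF (M * p)`, norms
`N_α = normAlong α`, `N_β = normAlong β`, Hecke norm `heckeNorm N ℓ = N_{α_ℓ} ∘ β_ℓ`,
Galois acting on the coefficients (`H528.gal`), `lcF` = leading coefficient.

**Function-level Hecke equivariance of the degeneracy norms** (`ℓ ≠ p` primes):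
    `N_α (heckeNorm (M p) ℓ f) = heckeNorm M ℓ (N_α f)`,   the same for `N_β`
(norm transitivity + the norm compatibility squares of helper801).

**NORM-CONST.**  `f` a Kummer generator of a class `x ∈ J₀(M p)[p]` (`div f = p·D`), `p` odd,
`p ∤ M`, `T_ℓ x = a·x` with `p ∤ a - (ℓ+1)` (non-Eisenstein at ONE prime `ℓ ∤ M p`), `f` fixed by a
set `H` of Galois automorphisms.  Then
    `lcF (N_β f) = lcF (N_α f) · v ^ p`,  `σ v = v` for `σ ∈ H`.
Consequently (`normConst_bar`): if `N_α f = e_α · h_A ^ p`, `N_β f = e_β · h_B ^ p` with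
`e_α, e_β` constants and `h_A, h_B ∈ FF M`, all `H`-fixed, then `e_β = e_α · v ^ p` with `v`
`H`-fixed: after replacing `h_B` by `v · h_B` the two norms have THE SAME constant, which is the
hypothesis of `H232.wnc_both` (norm contraction with one root at both `V∞` and `V₀`).

Proof.  `heckeNorm f = c · f ^ a · g ^ p`, `lcF g = 1`, `c`, `g` `H`-fixed (`SplitConst.lean`).
Apply `N_α`: `heckeNorm_M (N_α f) = c^{p+1} · (N_α f)^a · (N_α g)^p`; leading coefficients and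
`lcF (heckeNorm h)² = (lcF h)^{2(ℓ+1)}` give `A^{2(ℓ+1-a)} = c^{2(p+1)} · lcF(N_α g)^{2p}` for
`A = lcF (N_α f)`; the same for `β` with the SAME `c^{2(p+1)}`; divide and apply Bezout.
-/
import Fermat.Agent.Ribet.H703.SplitConst
import Fermat.Agent.Ribet.H801.DegBeta
import Fermat.Agent.Lib.X0Deg.Alpha
import Fermat.Agent.S37.H218.Degree

set_option autoImplicit false
set_option linter.style.haveILetI false
set_option linter.unusedSectionVars false
set_option synthInstance.maxHeartbeats 400000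
set_option maxHeartbeats 1000000

noncomputable section

namespace Fermat.Agent.Ribet.H703

open AlgebraicCurve ModularCurve HahnSeries
open Fermat.Agent.S24 Fermat.Agent.A2.H528 Fermat.Agent.S29.H395
  Fermat.Agent.S37.H818 Fermat.Agent.S29.H801

/-! ## Abstract norms -/

section Abstract

variable {K F F' F'' : Type*} [Field K] [Field F] [Field F'] [Field F''] [Algebra K F]
  [Algebra K F'] [Algebra K F'']

/-- Transitivity of the norm. -/
theorem normAlong_comp (ψ : F →ₐ[K] F') (ψ' : F' →ₐ[K] F'') (g : F'') :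
    normAlong (ψ'.comp ψ) g = normAlong ψ (normAlong ψ' g) := by
  letI a1 : Algebra F F' := algebraAlong ψ
  letI a2 : Algebra F' F'' := algebraAlong ψ'
  letI a3 : Algebra F F'' := algebraAlong (ψ'.comp ψ)
  haveI : IsScalarTower F F' F'' := IsScalarTower.of_algebraMap_eq fun x => rfl
  exact (Algebra.norm_norm (R := F) (S := F') (A := F'')).symm

/-- Transport of the norm by a pair of ring automorphisms. -/
theorem normAlong_ringEquiv (φ ψ : F →ₐ[K] F') (e : F ≃+* F) (e' : F' ≃+* F')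
    (h : ∀ x, e' (φ x) = ψ (e x)) (g : F') :
    normAlong ψ (e' g) = e (normAlong φ g) := by
  have h1 := @Algebra.norm_eq_of_equiv_equiv F F' F F' _ _ _ _ (algebraAlong φ) (algebraAlong ψ)
    e e' (by
      ext x
      exact (h x).symm) g
  unfold normAlong
  rw [h1, RingEquiv.apply_symm_apply]

/-- The norm of a constant. -/
theorem normAlong_algebraMap (ψ : F →ₐ[K] F') (c : K) :
    normAlong ψ (algebraMap K F' c) = algebraMap K F c ^ finrankAlong K ψ := by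
  letI := algebraAlong ψ
  have h : algebraMap K F' c = algebraMap F F' (algebraMap K F c) := (ψ.commutes c).symm
  unfold normAlong finrankAlong
  rw [h, Algebra.norm_algebraMap]

theorem normAlong_inv703 (ψ : F →ₐ[K] F') {f : F'} (hf : f ≠ 0) :
    normAlong ψ f⁻¹ = (normAlong ψ f)⁻¹ := by
  have h1 : normAlong ψ f * normAlong ψ f⁻¹ = 1 := by
    rw [← normAlong_mul, mul_inv_cancel₀ hf, normAlong_one]
  exact eq_inv_of_mul_eq_one_right h1

theorem normAlong_ne_zero703 (ψ : F →ₐ[K] F') {f : F'} (hf : f ≠ 0) :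
    normAlong ψ f ≠ 0 := by
  intro h0
  have h1 : normAlong ψ f * normAlong ψ f⁻¹ = 1 := by
    rw [← normAlong_mul, mul_inv_cancel₀ hf, normAlong_one]
  rw [h0, zero_mul] at h1
  exact zero_ne_one h1

theorem normAlong_zpow (ψ : F →ₐ[K] F') {f : F'} (hf : f ≠ 0) (a : ℤ) :
    normAlong ψ (f ^ a) = normAlong ψ f ^ a := by
  cases a with
  | ofNat n => rw [Int.ofNat_eq_natCast, zpow_natCast, zpow_natCast, normAlong_pow]
  | negSucc n =>
    rw [zpow_negSucc, zpow_negSucc, normAlong_inv703 ψ (pow_ne_zero _ hf), normAlong_pow]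

end Abstract

/-! ## Hecke equivariance of the degeneracy norms -/

section Modular

variable (M p ℓ : ℕ) [NeZero M] [NeZero p] [NeZero ℓ]

/-- `N_α ∘ heckeNorm = heckeNorm ∘ N_α`. -/
theorem normAlpha_heckeNorm (hp : p.Prime) (hℓ : ℓ.Prime) (hne : ℓ ≠ p) (f : FF (M * p)) :
    normAlong (heckeAlphaBar Kbar M p) (heckeNorm (M * p) ℓ f)
      = heckeNorm M ℓ (normAlong (heckeAlphaBar Kbar M p) f) := by
  have hc : M * ℓ * p = M * p * ℓ := Nat.mul_right_comm M ℓ p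
  have hNC := Fermat.Agent.Ribet.H801.normCompat_bar_to M p ℓ (M * p * ℓ) hℓ hp hne hc rfl
  unfold heckeNorm
  rw [← normAlong_comp, rel_AA (L := Kbar) M p ℓ, normAlong_comp]
  congr 1
  exact hNC f

/-- `N_β ∘ heckeNorm = heckeNorm ∘ N_β`. -/
theorem normBeta_heckeNorm (hp : p.Prime) (hℓ : ℓ.Prime) (hne : ℓ ≠ p) (f : FF (M * p)) :
    normAlong (heckeBetaBar Kbar M p) (heckeNorm (M * p) ℓ f)
      = heckeNorm M ℓ (normAlong (heckeBetaBar Kbar M p) f) := by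
  have hNC := Fermat.Agent.Ribet.H801.normCompat_beta_bar M p ℓ hp hℓ hne
  unfold heckeNorm
  rw [← normAlong_comp, ← rel_sq₁ (L := Kbar) M p ℓ, normAlong_comp]
  congr 1
  exact hNC f

/-- `N_α` commutes with the Galois action on the coefficients. -/
theorem gal_normAlpha (σ : Kbar ≃ₐ[ℚ] Kbar) (f : FF (M * p)) :
    gal M σ (normAlong (heckeAlphaBar Kbar M p) f)
      = normAlong (heckeAlphaBar Kbar M p) (gal (M * p) σ f) := by
  refine (normAlong_ringEquiv (heckeAlphaBar Kbar M p) (heckeAlphaBar Kbar M p) (gal M σ)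
    (gal (M * p) σ) (fun x => ?_) f).symm
  apply Subtype.ext
  show coeffMap (σ : Kbar →+* Kbar) ((heckeAlphaBar Kbar M p x : FF (M * p)) : LaurentSeries Kbar)
    = ((heckeAlphaBar Kbar M p (gal M σ x) : FF (M * p)) : LaurentSeries Kbar)
  rw [coe_heckeAlphaBar, coe_heckeAlphaBar]
  rfl

/-- `N_β` commutes with the Galois action on the coefficients. -/
theorem gal_normBeta (σ : Kbar ≃ₐ[ℚ] Kbar) (f : FF (M * p)) :
    gal M σ (normAlong (heckeBetaBar Kbar M p) f)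
      = normAlong (heckeBetaBar Kbar M p) (gal (M * p) σ f) := by
  refine (normAlong_ringEquiv (heckeBetaBar Kbar M p) (heckeBetaBar Kbar M p) (gal M σ)
    (gal (M * p) σ) (fun x => ?_) f).symm
  apply Subtype.ext
  show coeffMap (σ : Kbar →+* Kbar) ((heckeBetaBar Kbar M p x : FF (M * p)) : LaurentSeries Kbar)
    = ((heckeBetaBar Kbar M p (gal M σ x) : FF (M * p)) : LaurentSeries Kbar)
  rw [coe_heckeBetaBar, coe_heckeBetaBar, coeffMap_qExpand]
  rfl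

end Modular

/-! ## The Kummer relation with rationality -/

section KummerFixed

variable (N : ℕ) [NeZero N] (p ℓ : ℕ) [NeZero ℓ]

/-- **Kummer relation of an eigenclass, with rationality**: `heckeNorm f = c · f ^ a · g ^ p`,
`lcF g = 1`, and `c`, `g` are fixed by every Galois automorphism fixing `f`. -/
theorem exists_kummer_rel_fixed (hp : p.Prime) (hℓ : ℓ.Prime) (hℓN : ¬ ℓ ∣ N)
    (f : FF N) (hf0 : f ≠ 0)
    (D : Divisor.degZero (K := Kbar) (F := FF N))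
    (hD : ∀ v : Place Kbar (FF N), v.ord f = (p : ℤ) * (D : Divisor Kbar (FF N)) v)
    (a : ℤ) (hT : heckeOperatorBar N ⟨ℓ, hℓ⟩ (Pic0.mk D) = a • Pic0.mk D)
    (H : Set (Kbar ≃ₐ[ℚ] Kbar)) (hH : ∀ σ ∈ H, gal N σ f = f) :
    ∃ (c : Kbar) (g : FF N), c ≠ 0 ∧ g ≠ 0 ∧ lcF N g = 1 ∧
      heckeNorm N ℓ f = algebraMap Kbar (FF N) c * f ^ a * g ^ p ∧
      (∀ σ ∈ H, σ c = c) ∧ (∀ σ ∈ H, gal N σ g = g) := by
  obtain ⟨c, g, hc, hg, hlg, hrel⟩ := exists_kummer_rel N p ℓ hℓ f hf0 D hD a hT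
  have hA0 : lcF N f ≠ 0 := lcF_ne_zero N hf0
  have hAa : lcF N f ^ a ≠ 0 := zpow_ne_zero a hA0
  have e1 : lcF N (heckeNorm N ℓ f) = c * lcF N f ^ a := by
    rw [hrel, map_mul, map_mul, lcF_algebraMap, map_zpow₀, map_pow, hlg, one_pow, mul_one]
  have key : ∀ σ ∈ H, σ c = c ∧ gal N σ g = g := by
    intro σ hσ
    have hσf : gal N σ f = f := hH σ hσ
    have hrelσ : heckeNorm N ℓ f
        = algebraMap Kbar (FF N) (σ c) * f ^ a * gal N σ g ^ p := by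
      have h1 := congrArg (gal N σ) hrel
      rw [gal_heckeNorm N ℓ hℓ hℓN, hσf, map_mul, map_mul, gal_algebraMap, map_zpow₀, map_pow,
        hσf] at h1
      exact h1
    have hlgσ : lcF N (gal N σ g) = 1 := by rw [lcF_gal, hlg, map_one]
    have hσc : σ c = c := by
      have h1 : lcF N (heckeNorm N ℓ f) = σ c * lcF N f ^ a := by
        rw [hrelσ, map_mul, map_mul, lcF_algebraMap, map_zpow₀, map_pow, hlgσ, one_pow, mul_one]
      rw [e1] at h1
      exact (mul_right_cancel₀ hAa h1).symm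
    have hgp : gal N σ g ^ p = g ^ p := by
      have h1 : algebraMap Kbar (FF N) c * f ^ a * gal N σ g ^ p
          = algebraMap Kbar (FF N) c * f ^ a * g ^ p := by
        rw [← hrel, hrelσ, hσc]
      have h2 : algebraMap Kbar (FF N) c * f ^ a ≠ 0 := by
        refine mul_ne_zero ?_ (zpow_ne_zero a hf0)
        rw [Ne, map_eq_zero]
        exact hc
      exact mul_left_cancel₀ h2 h1
    have hσg : gal N σ g = g := by
      have hρ : (gal N σ g * g⁻¹) ^ p = 1 := by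
        rw [mul_pow, hgp, inv_pow, mul_inv_cancel₀ (pow_ne_zero p hg)]
      have hρlc : lcF N (gal N σ g * g⁻¹) = 1 := by
        rw [map_mul, map_inv₀, hlgσ, hlg, inv_one, mul_one]
      have := eq_one_of_pow_eq_one N hp.ne_zero hρ hρlc
      rw [mul_inv_eq_one₀ hg] at this
      exact this
    exact ⟨hσc, hσg⟩
  exact ⟨c, g, hc, hg, hlg, hrel, fun σ hσ => (key σ hσ).1, fun σ hσ => (key σ hσ).2⟩

end KummerFixed

/-! ## NORM-CONST -/

section Main

variable (M p ℓ : ℕ) [NeZero M] [NeZero p] [NeZero ℓ]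

/-- One side of NORM-CONST: for `ψ = α` or `β` (any `ψ` of degree `d` commuting with the Hecke
norm), `A = lcF (N_ψ f)` satisfies `A^{2(ℓ+1)} = c^{2d} · (A^a)² · (lcF (N_ψ g)²)^p`. -/
theorem lc_norm_rel (ψ : FF M →ₐ[Kbar] FF (M * p)) (d : ℕ) (hd : finrankAlong Kbar ψ = d)
    (hℓ : ℓ.Prime) (hℓM : ¬ ℓ ∣ M)
    (hcomm : ∀ f : FF (M * p), normAlong ψ (heckeNorm (M * p) ℓ f)
      = heckeNorm M ℓ (normAlong ψ f))
    (f g : FF (M * p)) (hf0 : f ≠ 0) (c : Kbar) (a : ℤ)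
    (hrel : heckeNorm (M * p) ℓ f = algebraMap Kbar (FF (M * p)) c * f ^ a * g ^ p) :
    lcF M (normAlong ψ f) ^ (2 * (ℓ + 1))
      = (c ^ d) ^ 2 * (lcF M (normAlong ψ f) ^ a) ^ 2 * (lcF M (normAlong ψ g) ^ 2) ^ p := by
  have h1 : heckeNorm M ℓ (normAlong ψ f)
      = algebraMap Kbar (FF M) c ^ d * normAlong ψ f ^ a * normAlong ψ g ^ p := by
    rw [← hcomm, hrel, normAlong_mul, normAlong_mul, normAlong_algebraMap, hd,
      normAlong_zpow ψ hf0, normAlong_pow]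
  have h2 : lcF M (heckeNorm M ℓ (normAlong ψ f))
      = c ^ d * lcF M (normAlong ψ f) ^ a * lcF M (normAlong ψ g) ^ p := by
    rw [h1, map_mul, map_mul, map_pow, lcF_algebraMap, map_zpow₀, map_pow]
  rw [← lcF_heckeNorm_sq M ℓ hℓ hℓM, h2]
  ring

/-- **NORM-CONST, leading-coefficient form.**  See the header. -/
theorem normConst_lc (hp : p.Prime) (hp2 : p ≠ 2) (hpM : ¬ p ∣ M) (hℓ : ℓ.Prime)
    (hℓN : ¬ ℓ ∣ M * p)
    (f : FF (M * p)) (hf0 : f ≠ 0)
    (D : Divisor.degZero (K := Kbar) (F := FF (M * p)))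
    (hD : ∀ v : Place Kbar (FF (M * p)),
      v.ord f = (p : ℤ) * (D : Divisor Kbar (FF (M * p))) v)
    (a : ℤ) (hT : heckeOperatorBar (M * p) ⟨ℓ, hℓ⟩ (Pic0.mk D) = a • Pic0.mk D)
    (hNE : ¬ (p : ℤ) ∣ a - (ℓ + 1))
    (H : Set (Kbar ≃ₐ[ℚ] Kbar)) (hH : ∀ σ ∈ H, gal (M * p) σ f = f) :
    ∃ v : Kbar, v ≠ 0 ∧ (∀ σ ∈ H, σ v = v) ∧
      lcF M (normAlong (heckeBetaBar Kbar M p) f)
        = lcF M (normAlong (heckeAlphaBar Kbar M p) f) * v ^ p := by
  have hℓM : ¬ ℓ ∣ M := fun h => hℓN (h.mul_right p)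
  have hne : ℓ ≠ p := fun h => hℓN (h ▸ dvd_mul_left ℓ M)
  obtain ⟨c, g, hc, hg, -, hrel, hσc, hσg⟩ :=
    exists_kummer_rel_fixed (M * p) p ℓ hp hℓ hℓN f hf0 D hD a hT H hH
  have hdα : finrankAlong Kbar (heckeAlphaBar Kbar M p) = p + 1 :=
    Fermat.Agent.Lib.X0Deg.finrankAlong_heckeAlphaBar_of_not_dvd M p hp hpM
  have hdβ : finrankAlong Kbar (heckeBetaBar Kbar M p) = p + 1 :=
    Fermat.Agent.S37.H218.finrankAlong_heckeBetaBar_of_not_dvd M p hp hpM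
  set A : Kbar := lcF M (normAlong (heckeAlphaBar Kbar M p) f) with hA
  set B : Kbar := lcF M (normAlong (heckeBetaBar Kbar M p) f) with hB
  set Gα : Kbar := lcF M (normAlong (heckeAlphaBar Kbar M p) g) with hGα
  set Gβ : Kbar := lcF M (normAlong (heckeBetaBar Kbar M p) g) with hGβ
  have hA0 : A ≠ 0 := lcF_ne_zero M (normAlong_ne_zero703 _ hf0)
  have hB0 : B ≠ 0 := lcF_ne_zero M (normAlong_ne_zero703 _ hf0)
  have hGα0 : Gα ≠ 0 := lcF_ne_zero M (normAlong_ne_zero703 _ hg)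
  have hGβ0 : Gβ ≠ 0 := lcF_ne_zero M (normAlong_ne_zero703 _ hg)
  have e1 : A ^ (2 * (ℓ + 1)) = (c ^ (p + 1)) ^ 2 * (A ^ a) ^ 2 * (Gα ^ 2) ^ p :=
    lc_norm_rel M p ℓ (heckeAlphaBar Kbar M p) (p + 1) hdα hℓ hℓM
      (normAlpha_heckeNorm M p ℓ hp hℓ hne) f g hf0 c a hrel
  have e2 : B ^ (2 * (ℓ + 1)) = (c ^ (p + 1)) ^ 2 * (B ^ a) ^ 2 * (Gβ ^ 2) ^ p :=
    lc_norm_rel M p ℓ (heckeBetaBar Kbar M p) (p + 1) hdβ hℓ hℓM
      (normBeta_heckeNorm M p ℓ hp hℓ hne) f g hf0 c a hrel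
  have hAa : A ^ a ≠ 0 := zpow_ne_zero a hA0
  have hBa : B ^ a ≠ 0 := zpow_ne_zero a hB0
  have hu0 : B / A ≠ 0 := div_ne_zero hB0 hA0
  have hcd : (c ^ (p + 1)) ^ 2 ≠ 0 := pow_ne_zero 2 (pow_ne_zero _ hc)
  have key : (B / A) ^ (2 * (((ℓ : ℤ) + 1) - a)) = ((Gβ / Gα) ^ 2) ^ (p : ℤ) := by
    have h1 : (B / A) ^ (2 * (((ℓ : ℤ) + 1) - a))
        = (B / A) ^ ((2 * (ℓ + 1) : ℕ) : ℤ) * (((B / A) ^ a) ^ 2)⁻¹ := by
      rw [← zpow_natCast ((B / A) ^ a) 2, ← zpow_mul, ← zpow_neg, ← zpow_add₀ hu0]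
      congr 1
      push_cast
      ring
    rw [h1, zpow_natCast, zpow_natCast, div_pow, div_zpow, div_pow, e1, e2, div_pow, div_pow]
    have hAa2 : (A ^ a) ^ 2 ≠ 0 := pow_ne_zero 2 hAa
    have hBa2 : (B ^ a) ^ 2 ≠ 0 := pow_ne_zero 2 hBa
    have hGp : (Gα ^ 2) ^ p ≠ 0 := pow_ne_zero p (pow_ne_zero 2 hGα0)
    field_simp
  have hn : ¬ (p : ℤ) ∣ ((ℓ : ℤ) + 1) - a := by
    intro hd
    apply hNE
    have : a - ((ℓ : ℤ) + 1) = -(((ℓ : ℤ) + 1) - a) := by ring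
    rw [this]
    exact (dvd_neg).mpr hd
  obtain ⟨α, β, hαβ⟩ := exists_zpow_eq_of_two_mul hu0 hp hp2 hn key
  refine ⟨((Gβ / Gα) ^ 2) ^ α * (B / A) ^ β,
    mul_ne_zero (zpow_ne_zero α (pow_ne_zero 2 (div_ne_zero hGβ0 hGα0))) (zpow_ne_zero β hu0),
    ?_, ?_⟩
  · intro σ hσ
    have hσf : gal (M * p) σ f = f := hH σ hσ
    have hσg' : gal (M * p) σ g = g := hσg σ hσ
    have hσA : σ A = A := by rw [hA, ← lcF_gal, gal_normAlpha, hσf]
    have hσB : σ B = B := by rw [hB, ← lcF_gal, gal_normBeta, hσf]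
    have hσGα : σ Gα = Gα := by rw [hGα, ← lcF_gal, gal_normAlpha, hσg']
    have hσGβ : σ Gβ = Gβ := by rw [hGβ, ← lcF_gal, gal_normBeta, hσg']
    rw [map_mul, map_zpow₀, map_zpow₀, map_pow, map_div₀, map_div₀, hσA, hσB, hσGα, hσGβ]
  · have h1 : B = A * (B / A) := by field_simp
    rw [← hαβ]
    exact h1

/-- **NORM-CONST.**  If `N_α f = e_α · h_A ^ p` and `N_β f = e_β · h_B ^ p` (all data fixed by
`H`), then `e_β = e_α · v ^ p` with `v` fixed by `H`. -/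
theorem normConst_bar (hp : p.Prime) (hp2 : p ≠ 2) (hpM : ¬ p ∣ M) (hℓ : ℓ.Prime)
    (hℓN : ¬ ℓ ∣ M * p)
    (f : FF (M * p)) (hf0 : f ≠ 0)
    (D : Divisor.degZero (K := Kbar) (F := FF (M * p)))
    (hD : ∀ v : Place Kbar (FF (M * p)),
      v.ord f = (p : ℤ) * (D : Divisor Kbar (FF (M * p))) v)
    (a : ℤ) (hT : heckeOperatorBar (M * p) ⟨ℓ, hℓ⟩ (Pic0.mk D) = a • Pic0.mk D)
    (hNE : ¬ (p : ℤ) ∣ a - (ℓ + 1))
    (H : Set (Kbar ≃ₐ[ℚ] Kbar)) (hH : ∀ σ ∈ H, gal (M * p) σ f = f)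
    (eα eβ : Kbar) (hA hB : FF M)
    (hNα : normAlong (heckeAlphaBar Kbar M p) f = algebraMap Kbar (FF M) eα * hA ^ p)
    (hNβ : normAlong (heckeBetaBar Kbar M p) f = algebraMap Kbar (FF M) eβ * hB ^ p)
    (hHA : ∀ σ ∈ H, gal M σ hA = hA) (hHB : ∀ σ ∈ H, gal M σ hB = hB) :
    ∃ v : Kbar, v ≠ 0 ∧ (∀ σ ∈ H, σ v = v) ∧ eβ = eα * v ^ p := by
  obtain ⟨v, hv0, hvH, hv⟩ := normConst_lc M p ℓ hp hp2 hpM hℓ hℓN f hf0 D hD a hT hNE H hH
  have hNα0 : normAlong (heckeAlphaBar Kbar M p) f ≠ 0 := normAlong_ne_zero703 _ hf0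
  have hNβ0 : normAlong (heckeBetaBar Kbar M p) f ≠ 0 := normAlong_ne_zero703 _ hf0
  have hhA : hA ≠ 0 := by
    rintro rfl
    rw [zero_pow hp.ne_zero, mul_zero] at hNα
    exact hNα0 hNα
  have hhB : hB ≠ 0 := by
    rintro rfl
    rw [zero_pow hp.ne_zero, mul_zero] at hNβ
    exact hNβ0 hNβ
  have hlA : lcF M hA ≠ 0 := lcF_ne_zero M hhA
  have hlB : lcF M hB ≠ 0 := lcF_ne_zero M hhB
  rw [hNα, hNβ, map_mul, map_mul, lcF_algebraMap, lcF_algebraMap, map_pow, map_pow] at hv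
  refine ⟨v * lcF M hA / lcF M hB, div_ne_zero (mul_ne_zero hv0 hlA) hlB, ?_, ?_⟩
  · intro σ hσ
    rw [map_div₀, map_mul, hvH σ hσ, ← lcF_gal, ← lcF_gal, hHA σ hσ, hHB σ hσ]
  · have hlBp : lcF M hB ^ p ≠ 0 := pow_ne_zero p hlB
    rw [div_pow, mul_pow]
    field_simp
    linear_combination hv

end Main

end Fermat.Agent.Ribet.H703

end
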