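/-
# RIBET row 38, WALL-p, (S4)/EIS: NORM-CONST at a level `E ⊆ ℚ̄`   (helper703)

Vocabulary of `A2/Mod/Spec.lean` / `Ribet/H232` (`q := p`): `FE E N = E(X₀(N)) ⊆ E((t))`,
`normAlpha E M p`, `normBeta E M p : FE E (M p) →* FE E M`, `iota : FE E N → FF N`.

* `normConst_E` : `u ∈ FE E (M p)` with `iota u` a Kummer generator (`div = p·D`) of a class with
  `T_ℓ [D] = a [D]`, `p ∤ a - (ℓ+1)`, `p` odd, `p ∤ M`, `ℓ ∤ M p`;
  `normAlpha u = e_α h_A^p`, `normBeta u = e_β h_B^p` (`e_α, e_β ∈ E`, `h_A, h_B ∈ FE E M`)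
  ⟹ `e_β = e_α v^p` with `v ∈ E`.
* `normConst_same` : … ⟹ `normBeta u = e_α h_B'^p`: the two norms have THE SAME constant
  (hypothesis of `H232.wnc_both`).
* `deepSplit_E` : with `H232.Setting`, depth `≥ 1` at `V∞` or `V₀`: for every `s` there is ONE
  `g ≠ 0` with `u / (e_α g^p) ∈ (1 + w^s V∞) ∩ (1 + w^s V₀)`
  ("`f_t` is strongly split over the tame level `E`", the hypothesis of COVER-NODE / INST-C).
-/
import Fermat.Agent.Ribet.H703.NormConst
import Fermat.Agent.S35.H858.NormBC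
import Fermat.Agent.Ribet.H232.NCBoth

set_option autoImplicit false
set_option linter.style.haveILetI false
set_option linter.unusedSectionVars false
set_option synthInstance.maxHeartbeats 400000
set_option maxHeartbeats 1600000

noncomputable section

namespace Fermat.Agent.Ribet.H703

open AlgebraicCurve ModularCurve HahnSeries
open Fermat.Agent.S24 Fermat.Agent.A2.H528 Fermat.Agent.S29.H395
open Fermat.Agent.A2 Fermat.Agent.A2.Mod Fermat.Agent.Ribet.H232

section Level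

variable (E : IntermediateField ℚ Qb)

/-- Elements of `E` are exactly the elements of `ℚ̄` fixed by the automorphisms fixing `E`. -/
theorem mem_of_fixed (v : Qb) (hv : ∀ σ : Qb ≃ₐ[ℚ] Qb, (∀ e : E, σ (e : Qb) = (e : Qb)) → σ v = v) :
    v ∈ E := by
  haveI : Algebra.IsAlgebraic ℚ Qb := AlgebraicClosure.isAlgebraic ℚ
  haveI : IsAlgClosure ℚ Qb := ⟨inferInstance, inferInstance⟩
  haveI : IsGalois ℚ Qb := IsAlgClosure.isGalois ℚ Qb
  have h := InfiniteGalois.fixedField_fixingSubgroup E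
  rw [← h, IntermediateField.mem_fixedField_iff]
  intro σ hσ
  exact hv σ (fun e => hσ e)

/-- The image of `iota` is fixed by the automorphisms fixing `E`. -/
theorem gal_iota (N : ℕ) [NeZero N] (σ : Qb ≃ₐ[ℚ] Qb) (hσ : ∀ e : E, σ (e : Qb) = (e : Qb))
    (y : FE E N) :
    gal N σ (T1.H669.iota E (modularFunctionFieldFull N) y)
      = T1.H669.iota E (modularFunctionFieldFull N) y := by
  apply Subtype.ext
  show coeffMap (σ : Qb →+* Qb) (coeffMap (algebraMap E Qb) (y : LaurentSeries E))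
    = coeffMap (algebraMap E Qb) (y : LaurentSeries E)
  rw [coeffMap_coeffMap]
  exact coeffMap_congr (RingHom.ext fun e => hσ e) _

variable (M p ℓ : ℕ) [NeZero M] [NeZero p] [NeZero ℓ]

/-- **NORM-CONST at level `E`.** -/
theorem normConst_E (hp : p.Prime) (hp2 : p ≠ 2) (hpM : ¬ p ∣ M) (hℓ : ℓ.Prime)
    (hℓN : ¬ ℓ ∣ M * p) (u : FE E (M * p)) (hu : u ≠ 0)
    (D : Divisor.degZero (K := Kbar) (F := FF (M * p)))
    (hD : ∀ v : Place Kbar (FF (M * p)),
      v.ord (T1.H669.iota E (modularFunctionFieldFull (M * p)) u)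
        = (p : ℤ) * (D : Divisor Kbar (FF (M * p))) v)
    (a : ℤ) (hT : heckeOperatorBar (M * p) ⟨ℓ, hℓ⟩ (Pic0.mk D) = a • Pic0.mk D)
    (hNE : ¬ (p : ℤ) ∣ a - (ℓ + 1))
    (eα eβ : E) (hA hB : FE E M)
    (hNα : normAlpha E M p u = algebraMap E (FE E M) eα * hA ^ p)
    (hNβ : normBeta E M p u = algebraMap E (FE E M) eβ * hB ^ p) :
    ∃ v : E, v ≠ 0 ∧ eβ = eα * v ^ p := by
  set H : Set (Qb ≃ₐ[ℚ] Qb) := {σ | ∀ e : E, σ (e : Qb) = (e : Qb)} with hH
  have hNα' : normAlong (heckeAlphaBar Kbar M p) (T1.H669.iota E (modularFunctionFieldFull (M * p)) u)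
      = algebraMap Kbar (FF M) (algebraMap E Qb eα)
        * T1.H669.iota E (modularFunctionFieldFull M) hA ^ p := by
    rw [← Fermat.Agent.S35.H858.iota_normAlong_alpha E M p
      (Fermat.Agent.Lib.HI.H864.finiteAlong_alpha M p) u]
    have h1 : normAlong (heckeAlphaBar E M p) u = algebraMap E (FE E M) eα * hA ^ p := hNα
    rw [h1, map_mul, map_pow, T1.H669.iota_algebraMap]
  have hNβ' : normAlong (heckeBetaBar Kbar M p) (T1.H669.iota E (modularFunctionFieldFull (M * p)) u)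
      = algebraMap Kbar (FF M) (algebraMap E Qb eβ)
        * T1.H669.iota E (modularFunctionFieldFull M) hB ^ p := by
    rw [← Fermat.Agent.S35.H858.iota_normAlong_beta E M p
      (Fermat.Agent.Lib.HI.H864.finiteAlong_beta M p) u]
    have h1 : normAlong (heckeBetaBar E M p) u = algebraMap E (FE E M) eβ * hB ^ p := hNβ
    rw [h1, map_mul, map_pow, T1.H669.iota_algebraMap]
  obtain ⟨v, hv0, hvH, hv⟩ := normConst_bar M p ℓ hp hp2 hpM hℓ hℓN
    (T1.H669.iota E (modularFunctionFieldFull (M * p)) u) (T1.H669.iota_ne_zero E _ hu) D hD a hT hNE H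
    (fun σ hσ => gal_iota E (M * p) σ hσ u)
    (algebraMap E Qb eα) (algebraMap E Qb eβ) (T1.H669.iota E (modularFunctionFieldFull M) hA)
    (T1.H669.iota E (modularFunctionFieldFull M) hB) hNα' hNβ'
    (fun σ hσ => gal_iota E M σ hσ hA) (fun σ hσ => gal_iota E M σ hσ hB)
  have hvE : v ∈ E := mem_of_fixed E v (fun σ hσ => hvH σ hσ)
  refine ⟨⟨v, hvE⟩, fun h => hv0 (congrArg Subtype.val h), ?_⟩
  apply Subtype.ext
  show (eβ : Qb) = ((eα * (⟨v, hvE⟩ : E) ^ p : E) : Qb)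
  rw [IntermediateField.coe_mul, IntermediateField.coe_pow]
  exact hv

/-- **The two norms have the same constant.** -/
theorem normConst_same (hp : p.Prime) (hp2 : p ≠ 2) (hpM : ¬ p ∣ M) (hℓ : ℓ.Prime)
    (hℓN : ¬ ℓ ∣ M * p) (u : FE E (M * p)) (hu : u ≠ 0)
    (D : Divisor.degZero (K := Kbar) (F := FF (M * p)))
    (hD : ∀ v : Place Kbar (FF (M * p)),
      v.ord (T1.H669.iota E (modularFunctionFieldFull (M * p)) u)
        = (p : ℤ) * (D : Divisor Kbar (FF (M * p))) v)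
    (a : ℤ) (hT : heckeOperatorBar (M * p) ⟨ℓ, hℓ⟩ (Pic0.mk D) = a • Pic0.mk D)
    (hNE : ¬ (p : ℤ) ∣ a - (ℓ + 1))
    (eα eβ : E) (hA hB : FE E M)
    (hNα : normAlpha E M p u = algebraMap E (FE E M) eα * hA ^ p)
    (hNβ : normBeta E M p u = algebraMap E (FE E M) eβ * hB ^ p) :
    ∃ hB' : FE E M, normBeta E M p u = algebraMap E (FE E M) eα * hB' ^ p := by
  obtain ⟨v, -, hv⟩ := normConst_E E M p ℓ hp hp2 hpM hℓ hℓN u hu D hD a hT hNE eα eβ hA hB
    hNα hNβ
  refine ⟨algebraMap E (FE E M) v * hB, ?_⟩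
  rw [hNβ, hv, map_mul, map_pow, mul_pow]
  ring

end Level

section Deep

variable {P : ValuationSubring Qb} {E : IntermediateField ℚ Qb} {M p : ℕ} [NeZero M] [NeZero p]
  {w : RE P E}

/-- **`f_t` is strongly split over `E`.**  `u ∈ FE E (M p)` a Kummer generator of a
non-Eisenstein eigenclass, both norms `p`-th powers up to constants of `E`, depth `≥ 1` at `V∞`
or at `V₀`.  Then for every `s` there is ONE `g ≠ 0` with
`u / (e_α g^p) ∈ (1 + w^s V∞) ∩ (1 + w^s V₀)`. -/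
theorem deepSplit_E (ℓ : ℕ) [NeZero ℓ] (hS : Setting P E M p w)
    {VM : ValuationSubring (FE E M)}
    {V : ValuationSubring (FE E (M * p))} (hVM : IsVinf P E M VM) (hV : IsVinf P E (M * p) V)
    {W : FE E (M * p) ≃ₐ[E] FE E (M * p)} (hW : IsFricke E (M * p) W)
    (hp : p.Prime) (hp2 : p ≠ 2) (hpM : ¬ p ∣ M) (hℓ : ℓ.Prime)
    (hℓN : ¬ ℓ ∣ M * p) {u : FE E (M * p)} (hu : u ≠ 0)
    (D : Divisor.degZero (K := Kbar) (F := FF (M * p)))
    (hD : ∀ v : Place Kbar (FF (M * p)),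
      v.ord (T1.H669.iota E (modularFunctionFieldFull (M * p)) u)
        = (p : ℤ) * (D : Divisor Kbar (FF (M * p))) v)
    (a : ℤ) (hT : heckeOperatorBar (M * p) ⟨ℓ, hℓ⟩ (Pic0.mk D) = a • Pic0.mk D)
    (hNE : ¬ (p : ℤ) ∣ a - (ℓ + 1))
    {eα eβ : E} {hA hB : FE E M}
    (hNα : normAlpha E M p u = algebraMap E (FE E M) eα * hA ^ p)
    (hNβ : normBeta E M p u = algebraMap E (FE E M) eβ * hB ^ p)
    (h1 : DepthE w p V 1 u ∨
      DepthE w p (V.comap (W : FE E (M * p) →+* FE E (M * p))) 1 u) (s : ℕ) :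
    ∃ g : FE E (M * p), g ≠ 0 ∧
      (u * (algebraMap E (FE E (M * p)) eα * g ^ p)⁻¹ - 1) * (cE P E (M * p) w ^ s)⁻¹ ∈ V ∧
      (u * (algebraMap E (FE E (M * p)) eα * g ^ p)⁻¹ - 1) * (cE P E (M * p) w ^ s)⁻¹
        ∈ V.comap (W : FE E (M * p) →+* FE E (M * p)) := by
  obtain ⟨hB', hNβ'⟩ := normConst_same E M p ℓ hp hp2 hpM hℓ hℓN u hu D hD a hT hNE eα eβ hA hB
    hNα hNβ
  exact wnc_both hS hVM hV hW hu hNα hNβ' h1 s

end Deep

end Fermat.Agent.Ribet.H703

end
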