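/-
# RIBET row 38, WALL-p, (S4)/WILD, leaf DEEP-SPLIT: depth one at a RATIONAL level   (helper703)

`E ⊆ ℚ̄` a level with `R_E = P ∩ E` a discrete valuation ring with algebraically closed residue
field (e.g. a good level, e.g. the tame level `ℚ̄^{I₁}`), `V∞` the Gauss valuation ring of
`F_{N,E}`.

* `exists_lift_alg`, `exists_lift_E` : every `s ≠ 0` in `k(X₀(M))`, `M ∣ N`, is a reduction (over
  `ℚ̄`, in the sense of `H884.IsRedInf`) of a function `S ∈ F_{N,E}` DEFINED OVER `E`;
* `exists_const_oneAdd` : `y ∈ F_{N,E}` with reduction `1` (over `ℚ̄`) ⟹ `y / e ∈ 1 + w V∞(E)`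
  for a constant `e ∈ Eˣ`;
* `depthE_of_isRedInf_pow` : `u ∈ F_{N,E}` with reduction `s ^ p`, `s ∈ k(X₀(M))` ⟹
  `H232.DepthE w p V∞ 1 u`  (`u ∈ Eˣ · (F_{N,E}ˣ)^p · (1 + w V∞)`): the depth-one input of the norm
  contraction `H232.wnc_both` AT THE LEVEL `E` (no enlargement of the level).
-/
import Fermat.Agent.Ribet.H884.SlopeClosed
import Fermat.Agent.Ribet.H997.RedField
import Fermat.Agent.Ribet.H216.GaussDescent
import Fermat.Agent.Ribet.H152.GoodInertia
import Fermat.Agent.Ribet.H232.NCInst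
import Fermat.Agent.A2.H708.GaussInfModular

set_option autoImplicit false
set_option linter.style.haveILetI false
set_option linter.unusedSectionVars false
set_option synthInstance.maxHeartbeats 400000
set_option maxHeartbeats 1600000

noncomputable section

namespace Fermat.Agent.Ribet.H703

open AlgebraicCurve ModularCurve HahnSeries
open Fermat.Agent.S24 Fermat.Agent.A2.Mod
open Fermat.Agent.A2 hiding Qb RE FE
open Fermat.Agent.Ribet.H884 Fermat.Agent.Ribet.H216 Fermat.Agent.Ribet.H232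

section Lift

variable (P : ValuationSubring (AlgebraicClosure ℚ)) (E : IntermediateField ℚ (AlgebraicClosure ℚ))

/-- Constants of the residue field of `P` lift to `R_E`. -/
theorem exists_RE_residue_eq (q : ℕ) (hq : q.Prime) (hP : P.LiesOverPrime q)
    (hac : IsAlgClosed (IsLocalRing.ResidueField (RE P E))) (c : kA P) :
    ∃ a : RE P E, IsLocalRing.residue P (reToP P E a) = c := by
  haveI := hac
  obtain ⟨y, rfl⟩ := IsLocalRing.residue_surjective (R := P) c
  obtain ⟨a, haE, haP, hya⟩ :=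
    Fermat.Agent.Ribet.H152.goodUp_exists_approx P E q hq hP (y : AlgebraicClosure ℚ) y.2
  refine ⟨⟨⟨a, haE⟩, haP⟩, ?_⟩
  have h1 : IsLocalRing.residue P (y - reToP P E ⟨⟨a, haE⟩, haP⟩) = 0 := by
    rw [IsLocalRing.residue_eq_zero_iff, ← ValuationSubring.coe_mem_nonunits_iff]
    exact hya
  rw [map_sub, sub_eq_zero] at h1
  exact h1.symm

variable {P E}

/-- Every element of the `k`-subalgebra generated by the `j̄(t^d)`, `d ∣ M`, is the reduction of
an `R_E`-integral series which is a function of level `N` over `E` (`M ∣ N`). -/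
theorem exists_lift_alg (q : ℕ) (hq : q.Prime) (hP : P.LiesOverPrime q)
    (hac : IsAlgClosed (IsLocalRing.ResidueField (RE P E))) (M N : ℕ) (hMN : M ∣ N)
    {r : LaurentSeries (kA P)}
    (hr : r ∈ Algebra.adjoin (kA P) (divisorExpansionsC (kA P) M)) :
    ∃ U : LaurentSeries (RE P E), H708.red P (coeffMap (reToP P E) U) = r ∧
      H708.incl (RE P E) U ∈ FE E N := by
  induction hr using Algebra.adjoin_induction with
  | mem x hx =>
    obtain ⟨d, hd0, hd, rfl⟩ := hx
    haveI : NeZero d := hd0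
    refine ⟨H708.castA (RE P E) (H708.jInt d), ?_, ?_⟩
    · show coeffMap (IsLocalRing.residue P) (coeffMap (reToP P E)
        (coeffMap (Int.castRingHom (RE P E)) (jqNModC ℤ d))) = _
      rw [coeffMap_jqNModC, coeffMap_jqNModC, coeffMap_jqNModC]
      rfl
    · rw [H708.incl_castA, H708.castQ_jInt]
      exact coeffEmb_mem_laurentBaseChange E (jqd_mem_full N (hd.trans hMN))
  | algebraMap c =>
    obtain ⟨a, ha⟩ := exists_RE_residue_eq P E q hq hP hac c
    refine ⟨H708.cstA (RE P E) a, ?_, ?_⟩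
    · rw [H708.cstA, coeffMap_single, H708.red, coeffMap_single, ha,
        algebraMap_laurentSeries_eq_single]
    · rw [H708.incl_cstA]
      exact (FE E N).algebraMap_mem _
  | add x y _ _ hx hy =>
    obtain ⟨U, rfl, hU⟩ := hx
    obtain ⟨V, rfl, hV⟩ := hy
    exact ⟨U + V, by rw [map_add, map_add], by rw [map_add]; exact add_mem hU hV⟩
  | mul x y _ _ hx hy =>
    obtain ⟨U, rfl, hU⟩ := hx
    obtain ⟨V, rfl, hV⟩ := hy
    exact ⟨U * V, by rw [map_mul, map_mul], by rw [map_mul]; exact mul_mem hU hV⟩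

/-- **Rational lifting.**  Every `s ≠ 0` in `k(X₀(M))`, `M ∣ N`, is a reduction of a function of
level `N` defined over `E`. -/
theorem exists_lift_E (q : ℕ) (hq : q.Prime) (hP : P.LiesOverPrime q)
    (hac : IsAlgClosed (IsLocalRing.ResidueField (RE P E))) (M N : ℕ) [NeZero N] (hMN : M ∣ N)
    {s : LaurentSeries (kA P)} (hs : s ∈ modularFunctionFieldFullC (kA P) M) (hs0 : s ≠ 0) :
    ∃ S : FE E N, S ≠ 0 ∧ IsRedInf N P (T1.H669.iota E (modularFunctionFieldFull N) S) s := by
  obtain ⟨a, ha, b, hb, rfl⟩ := IntermediateField.mem_adjoin_iff_div.mp hs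
  have hb0 : b ≠ 0 := by
    rintro rfl
    exact hs0 (div_zero a)
  have ha0 : a ≠ 0 := by
    rintro rfl
    exact hs0 (zero_div b)
  obtain ⟨Ua, hUa, hUam⟩ := exists_lift_alg q hq hP hac M N hMN ha
  obtain ⟨Ub, hUb, hUbm⟩ := exists_lift_alg q hq hP hac M N hMN hb
  have hUb0 : H708.incl (RE P E) Ub ≠ 0 := by
    intro h0
    have h1 : Ub = 0 := H708.incl_injective (RE P E) (h0.trans (map_zero _).symm)
    rw [h1, map_zero, map_zero] at hUb
    exact hb0 hUb.symm
  have hUa0 : H708.incl (RE P E) Ua ≠ 0 := by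
    intro h0
    have h1 : Ua = 0 := H708.incl_injective (RE P E) (h0.trans (map_zero _).symm)
    rw [h1, map_zero, map_zero] at hUa
    exact ha0 hUa.symm
  set Sa : FE E N := ⟨_, hUam⟩ with hSa
  set Sb : FE E N := ⟨_, hUbm⟩ with hSb
  have hSb0 : Sb ≠ 0 := fun h => hUb0 (congrArg Subtype.val h)
  have hSa0 : Sa ≠ 0 := fun h => hUa0 (congrArg Subtype.val h)
  refine ⟨Sa * Sb⁻¹, mul_ne_zero hSa0 (inv_ne_zero hSb0), ?_⟩
  refine ⟨1, coeffMap (reToP P E) Ua, coeffMap (reToP P E) Ub, one_ne_zero, ?_, ?_, ?_, ?_⟩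
  · rw [hUa]; exact ha0
  · rw [hUb]; exact hb0
  · rw [incl_coeffMap_reToP, incl_coeffMap_reToP, T1.H669.coe_iota, ← map_mul]
    have h1 : ((Sa * Sb⁻¹ : FE E N) : LaurentSeries E) * H708.incl (RE P E) Ub
        = H708.incl (RE P E) Ua := by
      show (H708.incl (RE P E) Ua) * (H708.incl (RE P E) Ub)⁻¹ * H708.incl (RE P E) Ub = _
      rw [mul_assoc, inv_mul_cancel₀ hUb0, mul_one]
    rw [h1, H708.cst, map_one, one_mul]
  · rw [hUa, hUb, div_mul_cancel₀ a hb0]

end Lift

section OneAdd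

variable {P : ValuationSubring (AlgebraicClosure ℚ)}
  {E : IntermediateField ℚ (AlgebraicClosure ℚ)}

/-- Over a discrete valuation ring, an integral series with zero reduction is the uniformiser
times an integral series. -/
theorem exists_incl_eq_unif_mul (hdvr : IsDiscreteValuationRing (RE P E)) {w : RE P E}
    (hw : Irreducible w) {U : LaurentSeries (RE P E)} (hU : H708.red (RE P E) U = 0) :
    ∃ U' : LaurentSeries (RE P E),
      H708.incl (RE P E) U = H708.cst (w : E) * H708.incl (RE P E) U' := by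
  haveI := hdvr
  have hw0 : (w : E) ≠ 0 := fun h => hw.ne_zero (Subtype.ext h)
  have hcoef : ∀ n, ∃ b : RE P E, U.coeff n = w * b := by
    intro n
    have h1 := congrArg (fun z => z.coeff n) hU
    simp only [coeffMap_coeff, HahnSeries.coeff_zero, IsLocalRing.residue_eq_zero_iff] at h1
    rw [hw.maximalIdeal_eq, Ideal.mem_span_singleton'] at h1
    obtain ⟨b, hb⟩ := h1
    exact ⟨b, by rw [← hb, mul_comm]⟩
  obtain ⟨U', hU'⟩ := H708.exists_incl_eq (A := RE P E)
    (x := H708.cst ((w : E)⁻¹) * H708.incl (RE P E) U) (by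
      intro n
      rw [H708.coeff_cst_mul, H708.coeff_incl]
      obtain ⟨b, hb⟩ := hcoef n
      rw [hb]
      have h2 : (((w * b : RE P E) : RE P E) : E) = (w : E) * (b : E) := rfl
      rw [h2, ← mul_assoc, inv_mul_cancel₀ hw0, one_mul]
      exact b.2)
  refine ⟨U', ?_⟩
  rw [hU', ← mul_assoc, H708.cst_mul_cst_inv hw0, one_mul]

/-- **Reduction `1` at a rational level.**  If `y ∈ F_{N,E}` has reduction `1` (over `ℚ̄`), then
`y / e ∈ 1 + w V∞(E)` for a constant `e ∈ Eˣ`. -/
theorem exists_const_oneAdd (q : ℕ) (hq : q.Prime) (hP : P.LiesOverPrime q)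
    (hdvr : IsDiscreteValuationRing (RE P E))
    (hac : IsAlgClosed (IsLocalRing.ResidueField (RE P E))) (N : ℕ) [NeZero N]
    {w : RE P E} (hw : Irreducible w)
    {V : ValuationSubring (FE E N)} (hV : IsVinf P E N V) (y : FE E N)
    (hy : IsRedInf N P (T1.H669.iota E (modularFunctionFieldFull N) y) 1) :
    ∃ e : E, e ≠ 0 ∧ (y * (algebraMap E (FE E N) e)⁻¹ - 1) * (cE P E N w)⁻¹ ∈ V := by
  haveI := hdvr
  have hy0 : y ≠ 0 := by
    rintro rfl
    exact H997.ne_zero_of_isRedInf hy (map_zero _)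
  have hy0' : ((y : FE E N) : LaurentSeries E) ≠ 0 := fun h => hy0 (Subtype.ext h)
  obtain ⟨c, U₁, U₂, hc, h₁, h₂, hm₁, hm₂, he⟩ :=
    H708.exists_normal_form (A := RE P E) (H708.intGen_full N)
      (H708.attainsMax_of_isNoetherianRing (RE P E) (modularFunctionFieldFull N)) y.2 hy0'
  have h₁' := red_coeffMap_reToP_ne_zero P E h₁
  have h₂' := red_coeffMap_reToP_ne_zero P E h₂
  have hc' : algebraMap E (AlgebraicClosure ℚ) c ≠ 0 :=
    fun h0 => hc ((map_eq_zero_iff _ (algebraMap E (AlgebraicClosure ℚ)).injective).mp h0)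
  have he' : ((T1.H669.iota E (modularFunctionFieldFull N) y :
        ↥(laurentBaseChange (AlgebraicClosure ℚ) (modularFunctionFieldFull N))) :
          LaurentSeries (AlgebraicClosure ℚ)) *
      H708.incl P (coeffMap (reToP P E) U₂) =
      H708.cst (algebraMap E (AlgebraicClosure ℚ) c) * H708.incl P (coeffMap (reToP P E) U₁) := by
    rw [incl_coeffMap_reToP, incl_coeffMap_reToP, T1.H669.coe_iota, ← map_mul, he, map_mul]
    congr 1
    exact Fermat.Agent.S18.H602.coeffMap_algebraMap' (algebraMap E (AlgebraicClosure ℚ)) c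
  have hred : IsRedInf N P (T1.H669.iota E (modularFunctionFieldFull N) y) _ :=
    H997.isRedInf_of_normal_form hc' h₁' h₂' he'
  obtain ⟨u, hu0, hu⟩ := H997.isRedInf_unique hy hred
  have hU : H708.red P (coeffMap (reToP P E) U₁)
      = HahnSeries.C u * H708.red P (coeffMap (reToP P E) U₂) := by
    have h3 : H708.red P (coeffMap (reToP P E) U₁) * (H708.red P (coeffMap (reToP P E) U₂))⁻¹
        * H708.red P (coeffMap (reToP P E) U₂)
        = HahnSeries.C u * 1 * H708.red P (coeffMap (reToP P E) U₂) := by rw [hu]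
    rwa [mul_assoc, inv_mul_cancel₀ h₂', mul_one, mul_one] at h3
  obtain ⟨a, ha⟩ := exists_RE_residue_eq P E q hq hP hac u
  -- `a` is a unit of `R_E`
  have haU : IsUnit a := by
    rw [← H997.isUnit_toA'_iff (A := P) E a]
    have h4 : IsLocalRing.residue P (H997.toA' P E a) ≠ 0 := by
      have h5 : IsLocalRing.residue P (H997.toA' P E a) = u := ha
      rw [h5]
      exact hu0
    by_contra hnu
    exact h4 ((H997.residue_eq_zero_iff_not_isUnit' _).mpr hnu)
  have ha0 : (a : E) ≠ 0 := fun h => haU.ne_zero (Subtype.ext h)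
  have hres : IsLocalRing.residue (RE P E) a ≠ 0 := fun h0 =>
    (H997.residue_eq_zero_iff_not_isUnit' a).mp h0 haU
  set U₃ : LaurentSeries (RE P E) := U₁ - H708.cstA (RE P E) a * U₂ with hU₃
  have hU₃red : H708.red (RE P E) U₃ = 0 := by
    rw [← H997.red_upA_eq_zero_iff (A := P) E U₃]
    show H708.red P (coeffMap (reToP P E) U₃) = 0
    rw [hU₃, map_sub, map_mul, map_sub, map_mul, hU]
    have h6 : H708.red P (coeffMap (reToP P E) (H708.cstA (RE P E) a)) = HahnSeries.C u := by
      rw [H708.cstA, coeffMap_single, coeffMap_single, ha]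
      rfl
    rw [h6, sub_self]
  obtain ⟨U₄, hU₄⟩ := exists_incl_eq_unif_mul hdvr hw hU₃red
  have hw0 : (w : E) ≠ 0 := fun h => hw.ne_zero (Subtype.ext h)
  refine ⟨c * a, mul_ne_zero hc ha0, ?_⟩
  rw [hV]
  refine ⟨U₄, H708.cstA (RE P E) a * U₂, ?_, ?_, ?_⟩
  · rw [map_mul, H708.red_cstA]
    refine mul_ne_zero ?_ h₂
    intro h0
    have h7 := congrArg (fun z => z.coeff 0) h0
    simp only [HahnSeries.coeff_single_same, HahnSeries.coeff_zero] at h7
    exact hres h7
  · rw [map_mul, H708.incl_cstA]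
    exact mul_mem ((FE E N).algebraMap_mem _) hm₂
  · have hinc3 : H708.incl (RE P E) U₃
        = H708.incl (RE P E) U₁ - H708.cst (a : E) * H708.incl (RE P E) U₂ := by
      rw [hU₃, map_sub, map_mul, H708.incl_cstA]
    have hcoe : (((y * (algebraMap E (FE E N) (c * a))⁻¹ - 1) * (cE P E N w)⁻¹ : FE E N) :
        LaurentSeries E)
        = ((y : LaurentSeries E) * (H708.cst (c * a))⁻¹ - 1) * (H708.cst (w : E))⁻¹ := rfl
    rw [hcoe, map_mul, H708.incl_cstA]
    have hca : H708.cst (c * a : E) ≠ 0 := H708.cst_ne_zero (mul_ne_zero hc ha0)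
    have hcw : H708.cst (w : E) ≠ 0 := H708.cst_ne_zero hw0
    have hcc : H708.cst (c : E) ≠ 0 := H708.cst_ne_zero hc
    have hcaa : H708.cst (a : E) ≠ 0 := H708.cst_ne_zero ha0
    have e1 : (y : LaurentSeries E) * H708.incl (RE P E) U₂
        = H708.cst c * (H708.cst (a : E) * H708.incl (RE P E) U₂
          + H708.cst (w : E) * H708.incl (RE P E) U₄) := by
      rw [he, ← hU₄, hinc3]
      ring
    rw [H708.cst_mul]
    field_simp
    rw [sub_mul, e1]
    ring

end OneAdd

section Depth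

variable {P : ValuationSubring (AlgebraicClosure ℚ)}
  {E : IntermediateField ℚ (AlgebraicClosure ℚ)} {M p : ℕ} [NeZero M] [NeZero p]

/-- Powers of reductions (local copy of the induction). -/
theorem isRedInf_pow703 {N : ℕ} [NeZero N] {f : FF N} {r : LaurentSeries (kA P)}
    (h : IsRedInf N P f r) (n : ℕ) : IsRedInf N P (f ^ n) (r ^ n) := by
  induction n with
  | zero => rw [pow_zero, pow_zero]; exact isRedInf_one
  | succ n ih => rw [pow_succ, pow_succ]; exact IsRedInf.mul ih h

/-- **Depth one at a rational level.**  `u ∈ F_{Mp,E}`; if over `ℚ̄` the function `u / G ^ p` has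
reduction `1` on `C∞` (e.g. `u` is a Kummer generator of a class of the split part), then
`u ∈ Eˣ · (F_{Mp,E}ˣ)^p · (1 + w V∞(E))`. -/
theorem depthE_of_redOne {w : RE P E} (hS : Setting P E M p w)
    (hac : IsAlgClosed (IsLocalRing.ResidueField (RE P E)))
    {V : ValuationSubring (FE E (M * p))} (hV : IsVinf P E (M * p) V) (u : FE E (M * p))
    (G : FF (M * p)) (hG : G ≠ 0)
    (h : IsRedInf (M * p) P
      (T1.H669.iota E (modularFunctionFieldFull (M * p)) u * (G ^ p)⁻¹) 1) :
    DepthE w p V 1 u := by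
  have hp := hS.q_prime
  have hpM := hS.q_not_dvd
  have hP := hS.lies_over
  obtain ⟨r, hr⟩ := H997.exists_isRedInf hp hP hG
  have hr0 : r ≠ 0 := H997.isRedInf_ne_zero hr
  have hrM : r ∈ modularFunctionFieldFullC (kA P) M :=
    H997.isRedSer_mem_of_level_mul hp hpM hP G.2 hr
  obtain ⟨S, hS0, hSr⟩ := exists_lift_E p hp hP hac M (M * p) (dvd_mul_right M p) hrM hr0
  -- `y = u / S ^ p` has reduction `1`
  have hy : IsRedInf (M * p) P
      (T1.H669.iota E (modularFunctionFieldFull (M * p)) (u * (S ^ p)⁻¹)) 1 := by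
    have h1 := (h.mul (isRedInf_pow703 hr p)).mul (isRedInf_pow703 hSr p).inv
    have e1 : (1 : LaurentSeries (kA P)) * r ^ p * (r ^ p)⁻¹ = 1 := by
      rw [one_mul, mul_inv_cancel₀ (pow_ne_zero p hr0)]
    rw [e1] at h1
    have e2 : T1.H669.iota E (modularFunctionFieldFull (M * p)) (u * (S ^ p)⁻¹)
        = T1.H669.iota E (modularFunctionFieldFull (M * p)) u * (G ^ p)⁻¹ * G ^ p
          * (T1.H669.iota E (modularFunctionFieldFull (M * p)) S ^ p)⁻¹ := by
      rw [map_mul, map_inv₀, map_pow, mul_assoc (T1.H669.iota E _ u),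
        inv_mul_cancel₀ (pow_ne_zero p hG), mul_one]
    rw [e2]
    exact h1
  obtain ⟨e, he0, hmem⟩ := exists_const_oneAdd p hp hP hS.dvr hac (M * p) hS.unif hV _ hy
  refine ⟨e, he0, S, hS0, ?_⟩
  have e3 : u * (algebraMap E (FE E (M * p)) e * S ^ p)⁻¹
      = u * (S ^ p)⁻¹ * (algebraMap E (FE E (M * p)) e)⁻¹ := by
    rw [mul_inv]
    ring
  rw [e3, pow_one]
  exact hmem

end Depth

end Fermat.Agent.Ribet.H703

end
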