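/-
# RIBET row 38, WALL-p, (S4)/WILD, leaf DEEP-SPLIT   (helper703)

The fields `hft0`, `hft_div`, `hft_split₁`, `hft_split₂` of `H704.CoreOut.WildFrame` for a
RATIONAL Kummer generator `ft ∈ F_{M'p,E}` of `t` with leading coefficient a `p`-th power
(e.g. `1`), at ANY level `E` with `Mod.Setting` and algebraically closed residue field
(e.g. the tame level `H944.Tame.tameLevel A ζ`), and for ANY semistable chart `c` of the
standard chart algebra `Mod.chartAlg A E (M' * p) (Mod.xE E M' p)`.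

Inputs (all on main):
* `t ∈ splitPart` : (S1) `H884.s1` applied to `x` (`mem_splitPart_of_shear`);
* the rational generator is `SplitGen` : GEN `H669.genIndep_of H997.redField`;
* depth one over `ℚ̄` in reduction form : `H573.splitGen_lift`;
* depth one AT THE LEVEL `E` : `H703.depthE_of_redOne` (`TameDepth.lean`);
* the norms are `E · (F_{M',E})^p` : `H801.alphaL_mk_eq_zero_iff` + descent of roots
  `S36.H512.exists_const_mul_pow_of_iota`;
* norm contraction with constants : `H944.LcConst.deepSplit_lc` (over `H703.deepSplit_E`,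
  `H232.wnc_both`);
* chart form : `H862.cutBy_of_isCoordPair` + CUTLOC `H220.cutLoc`.
-/
import Fermat.Agent.Ribet.H703.TameDepth
import Fermat.Agent.Ribet.H944.LcConst
import Fermat.Agent.Ribet.H669.Gen
import Fermat.Agent.Ribet.H573.SplitLift
import Fermat.Agent.Ribet.H884.SlopeS1
import Fermat.Agent.Ribet.H801.DegKummer
import Fermat.Agent.S36.H512.DescWire
import Fermat.Agent.Ribet.H220.S2CutLoc
import Fermat.Agent.Ribet.H862.StdModel
import Fermat.Agent.A2.T1.H669.T2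
import Fermat.Agent.Ribet.H704.I6Inst

set_option autoImplicit false
set_option linter.style.haveILetI false
set_option linter.unusedSectionVars false
set_option linter.unusedVariables false
set_option synthInstance.maxHeartbeats 400000
set_option maxHeartbeats 1600000

noncomputable section

namespace Fermat.Agent.Ribet.H703

open AlgebraicCurve ModularCurve HahnSeries
open Fermat.Agent.S24 Fermat.Agent.A2.H528 Fermat.Agent.S29.H395
open Fermat.Agent.A2.Mod
open Fermat.Agent.A2 hiding Qb RE FE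
open Fermat.Agent.Ribet.H884 Fermat.Agent.Ribet.H232
open Fermat.Agent.Ribet.H944.Wall

/-! ## 1. `t` lies in the split part -/

section Split

variable {p M' : ℕ} [NeZero M'] [NeZero p] [NeZero (p * M')]

/-- If inertia moves `x` by a multiple of `t` and some `σ₀` really moves `x`, then `t` lies in the
split part (by (S1)). -/
theorem mem_splitPart_of_shear (hp : p.Prime) (hpM : ¬ p ∣ M')
    (A : ValuationSubring (AlgebraicClosure ℚ)) (hA : A.LiesOverPrime p)
    (x t : JZero (p * M')) (hx : p • x = 0) (ht : p • t = 0)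
    (σ₀ : AlgebraicClosure ℚ ≃ₐ[ℚ] AlgebraicClosure ℚ) (hσ₀ : σ₀ ∈ A.inertiaSubgroupIn ℚ)
    (n : ℕ) (hsh : σ₀ • x = x + n • t) (hne : σ₀ • x ≠ x) : t ∈ splitPart p M' A := by
  have h1 : σ₀ • x - x ∈ splitPart p M' A := s1 p M' hp hpM A hA x hx σ₀ hσ₀
  have h2 : σ₀ • x - x = n • t := by rw [hsh]; abel
  rw [h2] at h1
  have hnt : n • t ≠ 0 := by
    intro h0
    apply hne
    rw [hsh, h0, add_zero]
  have hpn : ¬ p ∣ n := by
    rintro ⟨k, rfl⟩
    apply hnt
    rw [mul_nsmul, ht, smul_zero]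
  have hcop : Nat.Coprime n p := (Nat.Coprime.symm ((Nat.Prime.coprime_iff_not_dvd hp).2 hpn))
  have hb := Nat.gcd_eq_gcd_ab n p
  rw [hcop.gcd_eq_one] at hb
  have e : t = (n.gcdA p) • (n • t) := by
    have e1 : ((n : ℤ) * n.gcdA p + (p : ℤ) * n.gcdB p) • t = t := by
      rw [← hb, Nat.cast_one, one_zsmul]
    rw [add_zsmul, mul_zsmul, mul_zsmul, natCast_zsmul, natCast_zsmul,
      smul_comm p (n.gcdB p) t, ht, smul_zero, add_zero, smul_comm n (n.gcdA p) t] at e1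
    exact e1.symm
  rw [e]
  exact (splitPart p M' A).zsmul_mem h1 _

end Split

/-! ## 2. Renaming the level `p * M'` to `M' * p` -/

section Cast

/-- Transport of the Kummer data from the level `N = p * M'` of the wall to the level `M * p` of
`A2/Mod`. -/
theorem exists_level_cast (M p N : ℕ) [NeZero M] [NeZero p] [NeZero N] (h : M * p = N)
    (A : ValuationSubring (AlgebraicClosure ℚ)) (S : Finset ℕ) (a : ℕ → ℤ) (f : FF N)
    (x : JZero N) (hK : IsKummerGen N p f x) (he : EigenAt N S a x) (g₁ g₂ : FF M)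
    (h₁ : normAlong (Fermat.Agent.S29.H801.alphaTo (AlgebraicClosure ℚ) M p N h) f = g₁ ^ p)
    (h₂ : normAlong (Fermat.Agent.S29.H801.betaTo (AlgebraicClosure ℚ) M p N h) f = g₂ ^ p)
    (G : FF N) (hG : G ≠ 0) (hred : IsRedInf N A (f * (G ^ p)⁻¹) 1) :
    ∃ (f' : FF (M * p)) (D : Divisor.degZero (K := AlgebraicClosure ℚ) (F := FF (M * p)))
      (G' : FF (M * p)),
      (f' : LaurentSeries (AlgebraicClosure ℚ)) = (f : LaurentSeries (AlgebraicClosure ℚ)) ∧
      f' ≠ 0 ∧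
      (∀ v : Place (AlgebraicClosure ℚ) (FF (M * p)),
        v.ord f' = (p : ℤ) * (D : Divisor (AlgebraicClosure ℚ) (FF (M * p))) v) ∧
      (∀ ℓ : Nat.Primes, (ℓ : ℕ) ∉ S →
        heckeOperatorBar (M * p) ℓ (Pic0.mk D) = a ℓ • Pic0.mk D) ∧
      normAlong (heckeAlphaBar (AlgebraicClosure ℚ) M p) f' = g₁ ^ p ∧
      normAlong (heckeBetaBar (AlgebraicClosure ℚ) M p) f' = g₂ ^ p ∧
      G' ≠ 0 ∧ IsRedInf (M * p) A (f' * (G' ^ p)⁻¹) 1 := by
  subst h
  obtain ⟨hf0, D, hD, hord⟩ := hK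
  refine ⟨f, D, G, rfl, hf0, hord, ?_, h₁, h₂, hG, hred⟩
  intro ℓ hℓ
  have := he ℓ hℓ
  rw [← hD] at this
  exact this

end Cast

/-! ## 3. Descent of the norms -/

section Norms

variable (E : IntermediateField ℚ (AlgebraicClosure ℚ))

/-- `E` is the fixed field of its fixing subgroup. -/
theorem mem_iff_fixed703 (x : AlgebraicClosure ℚ) :
    x ∈ E ↔ ∀ τ ∈ E.fixingSubgroup, τ x = x := by
  constructor
  · intro hx τ hτ
    exact (IntermediateField.mem_fixingSubgroup_iff E τ).1 hτ x hx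
  · intro h
    refine mem_of_fixed E x (fun σ hσ => h σ ?_)
    rw [IntermediateField.mem_fixingSubgroup_iff]
    intro e he
    exact hσ ⟨e, he⟩

variable (M p : ℕ) [NeZero M] [NeZero p]

/-- If `N_α (iota u)` is a `p`-th power over `ℚ̄`, then `N_α u ∈ E · (F_{M,E})^p`. -/
theorem normAlpha_decomp (hp : p.Prime) (u : FE E (M * p)) (g₁ : FF M)
    (h₁ : normAlong (heckeAlphaBar (AlgebraicClosure ℚ) M p)
      (T1.H669.iota E (modularFunctionFieldFull (M * p)) u) = g₁ ^ p) :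
    ∃ (eα : E) (hA : FE E M), normAlpha E M p u = algebraMap E (FE E M) eα * hA ^ p := by
  by_cases hG : normAlpha E M p u = 0
  · exact ⟨0, 0, by rw [hG, map_zero, zero_mul]⟩
  have hι : T1.H669.iota E (modularFunctionFieldFull M) (normAlpha E M p u)
      = algebraMap (AlgebraicClosure ℚ) (FF M) 1 * g₁ ^ p := by
    have e1 : normAlpha E M p u = normAlong (heckeAlphaBar E M p) u := rfl
    rw [e1, Fermat.Agent.S35.H858.iota_normAlong_alpha E M p
      (Fermat.Agent.Lib.HI.H864.finiteAlong_alpha M p) u, h₁, map_one, one_mul]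
  obtain ⟨c, a, -, -, hca⟩ := Fermat.Agent.S36.H512.exists_const_mul_pow_of_iota
    (modularFunctionFieldFull M) E.fixingSubgroup E (mem_iff_fixed703 E) hp.pos
    (normAlpha E M p u) hG 1 g₁ hι
  exact ⟨c, a, hca⟩

/-- If `N_β (iota u)` is a `p`-th power over `ℚ̄`, then `N_β u ∈ E · (F_{M,E})^p`. -/
theorem normBeta_decomp (hp : p.Prime) (u : FE E (M * p)) (g₂ : FF M)
    (h₂ : normAlong (heckeBetaBar (AlgebraicClosure ℚ) M p)
      (T1.H669.iota E (modularFunctionFieldFull (M * p)) u) = g₂ ^ p) :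
    ∃ (eβ : E) (hB : FE E M), normBeta E M p u = algebraMap E (FE E M) eβ * hB ^ p := by
  by_cases hG : normBeta E M p u = 0
  · exact ⟨0, 0, by rw [hG, map_zero, zero_mul]⟩
  have hι : T1.H669.iota E (modularFunctionFieldFull M) (normBeta E M p u)
      = algebraMap (AlgebraicClosure ℚ) (FF M) 1 * g₂ ^ p := by
    have e1 : normBeta E M p u = normAlong (heckeBetaBar E M p) u := rfl
    rw [e1, Fermat.Agent.S35.H858.iota_normAlong_beta E M p
      (Fermat.Agent.Lib.HI.H864.finiteAlong_beta M p) u, h₂, map_one, one_mul]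
  obtain ⟨c, a, -, -, hca⟩ := Fermat.Agent.S36.H512.exists_const_mul_pow_of_iota
    (modularFunctionFieldFull M) E.fixingSubgroup E (mem_iff_fixed703 E) hp.pos
    (normBeta E M p u) hG 1 g₂ hι
  exact ⟨c, a, hca⟩

end Norms

/-! ## 4. DEEP-SPLIT, valuation form -/

section Val

variable {p M' : ℕ} [NeZero M'] [NeZero p] [NeZero (p * M')]

/-- **DEEP-SPLIT (valuation form).**  `t` a new non-Eisenstein eigenclass of the split part,
`ft ∈ F_{M'p,E}` a rational Kummer generator of `t` whose leading coefficient is a `p`-th power: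
for every `s` there is `g ≠ 0` with `ft / g ^ p ∈ (1 + w^s V∞) ∩ (1 + w^s V₀)`. -/
theorem deepSplit_val (hp : p.Prime) (hp2 : p ≠ 2) (hpM : ¬ p ∣ M')
    (A : ValuationSubring (AlgebraicClosure ℚ)) (hA : A.LiesOverPrime p)
    (S : Finset ℕ) (a : ℕ → ℤ) (hNE : NonEisAway p a) (t : JZero (p * M'))
    (ht : IsNewTors p M' t) (het : EigenAt (p * M') S a t) (htS : t ∈ splitPart p M' A)
    (E : IntermediateField ℚ (AlgebraicClosure ℚ)) (w : RE A E) (hS : Setting A E M' p w)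
    (hac : IsAlgClosed (IsLocalRing.ResidueField (RE A E)))
    {VM : ValuationSubring (FE E M')} {V : ValuationSubring (FE E (M' * p))}
    (hVM : IsVinf A E M' VM) (hV : IsVinf A E (M' * p) V)
    {W : FE E (M' * p) ≃ₐ[E] FE E (M' * p)} (hW : IsFricke E (M' * p) W)
    (ft : FE E (M' * p)) (f : FF (p * M')) (hfK : IsKummerGen (p * M') p f t)
    (hfe : (f : LaurentSeries (AlgebraicClosure ℚ))
      = coeffMap (algebraMap E (AlgebraicClosure ℚ)) (ft : LaurentSeries E))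
    (c : E) (hlc : (ft : LaurentSeries E).leadingCoeff = c ^ p) (s : ℕ) :
    ∃ g : FE E (M' * p), g ≠ 0 ∧
      (ft * (g ^ p)⁻¹ - 1) * (cE A E (M' * p) w ^ s)⁻¹ ∈ V ∧
      (ft * (g ^ p)⁻¹ - 1) * (cE A E (M' * p) w ^ s)⁻¹
        ∈ V.comap (W : FE E (M' * p) →+* FE E (M' * p)) := by
  -- the rational generator is split
  have hsplit : SplitGen p M' A f :=
    ((Fermat.Agent.Ribet.H669.genIndep_of Fermat.Agent.Ribet.H997.redField) p M' hp hpM A hA t f
      hfK).2 (mem_splitSet_of_mem_splitPart htS)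
  obtain ⟨⟨G, hG0, hGred⟩, -⟩ := Fermat.Agent.Ribet.H573.splitGen_lift hp hpM hA hsplit
  -- both norms are `p`-th powers over `ℚ̄`
  obtain ⟨hf0, D, hDt, hord⟩ := id hfK
  obtain ⟨-, hα, hβ⟩ := ht
  rw [← hDt] at hα hβ
  obtain ⟨g₁, -, h₁⟩ := (Fermat.Agent.Ribet.H801.alphaL_mk_eq_zero_iff p M' hp.ne_zero D hf0
    (fun v => (hord v).symm)).1 hα
  obtain ⟨g₂, -, h₂⟩ := (Fermat.Agent.Ribet.H801.betaL_mk_eq_zero_iff p M' hp.ne_zero D hf0
    (fun v => (hord v).symm)).1 hβ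
  -- the level `M' * p`
  obtain ⟨f', D', G', hff', hf'0, hD', hT', hN₁, hN₂, hG'0, hred'⟩ :=
    exists_level_cast M' p (p * M') (Nat.mul_comm M' p) A S a f t hfK het g₁ g₂ h₁ h₂ G hG0 hGred
  have hιf : T1.H669.iota E (modularFunctionFieldFull (M' * p)) ft = f' := by
    apply Subtype.ext
    rw [T1.H669.coe_iota, hff', hfe]
  have hft0 : ft ≠ 0 := by
    rintro rfl
    apply hf'0
    rw [← hιf, map_zero]
  -- the auxiliary prime
  obtain ⟨ℓ, hℓ, hℓS, hℓNE⟩ := hNE (S ∪ (M' * p).primeFactors)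
  haveI : NeZero ℓ := ⟨hℓ.ne_zero⟩
  have hℓS' : ℓ ∉ S := fun h => hℓS (Finset.mem_union_left _ h)
  have hMp0 : M' * p ≠ 0 := mul_ne_zero (NeZero.ne M') hp.ne_zero
  have hℓN : ¬ ℓ ∣ M' * p := fun h =>
    hℓS (Finset.mem_union_right _ (Nat.mem_primeFactors.2 ⟨hℓ, h, hMp0⟩))
  -- the norms over `E`
  obtain ⟨eα, hA', hNα⟩ := normAlpha_decomp E M' p hp ft g₁ (by rw [hιf]; exact hN₁)
  obtain ⟨eβ, hB', hNβ⟩ := normBeta_decomp E M' p hp ft g₂ (by rw [hιf]; exact hN₂)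
  -- depth one
  have h1 : DepthE w p V 1 ft :=
    depthE_of_redOne hS hac hV ft G' hG'0 (by rw [hιf]; exact hred')
  exact Fermat.Agent.Ribet.H944.LcConst.deepSplit_lc ℓ hS hVM hV hW hp hp2 hpM hℓ hℓN hft0 D'
    (fun v => by rw [hιf]; exact hD' v) (a ℓ) (hT' ⟨ℓ, hℓ⟩ hℓS') hℓNE hNα hNβ (Or.inl h1) c hlc s

/-- The rational Kummer generator is nonzero and horizontally `p`-divisible. -/
theorem divisibleDiv_of_kummerGen (t : JZero (p * M'))
    (E : IntermediateField ℚ (AlgebraicClosure ℚ))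
    (ft : FE E (M' * p)) (f : FF (p * M')) (hfK : IsKummerGen (p * M') p f t)
    (hfe : (f : LaurentSeries (AlgebraicClosure ℚ))
      = coeffMap (algebraMap E (AlgebraicClosure ℚ)) (ft : LaurentSeries E)) :
    ft ≠ 0 ∧ DivisibleDiv E p ft := by
  have key : ∀ (N : ℕ) [NeZero N] (h : M' * p = N) (f : FF N) (x : JZero N),
      IsKummerGen N p f x →
      (f : LaurentSeries (AlgebraicClosure ℚ))
        = coeffMap (algebraMap E (AlgebraicClosure ℚ)) (ft : LaurentSeries E) →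
      ft ≠ 0 ∧ DivisibleDiv E p ft := by
    intro N _ h f x hK hfe'
    subst h
    obtain ⟨hf0, D, -, hord⟩ := hK
    have hιf : T1.H669.iota E (modularFunctionFieldFull (M' * p)) ft = f := by
      apply Subtype.ext
      rw [T1.H669.coe_iota, hfe']
    have hft0 : ft ≠ 0 := by
      rintro rfl
      apply hf0
      rw [← hιf, map_zero]
    refine ⟨hft0, ?_⟩
    exact T1.H669.divisibleDiv_of_ord E (modularFunctionFieldFull (M' * p)) p ft hft0
      (fun v => by rw [hιf, hord v]; exact dvd_mul_right _ _)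
  exact key (p * M') (Nat.mul_comm M' p) f t hfK hfe

end Val

/-! ## 5. DEEP-SPLIT, chart form -/

section Chart

/-- Valuation form ⟹ `I6.SplitAt` at a prime `𝔭` of a chart `B` with `V ⊆ B_𝔭`. -/
theorem splitAt_of_val {R F : Type*} [CommRing R] [Field F] [Algebra R F] (B : Subalgebra R F)
    (𝔭 : Ideal B) (V : ValuationSubring F) (π : R) (hπ0 : algebraMap R F π ≠ 0)
    (hloc : ∀ f ∈ V, ∃ a b : B, b ∉ 𝔭 ∧ f * (b : F) = (a : F)) (m : ℕ) (u : F)
    (h : ∀ s : ℕ, ∃ g : F, g ≠ 0 ∧ (u * (g ^ m)⁻¹ - 1) * (algebraMap R F π ^ s)⁻¹ ∈ V) :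
    Fermat.Agent.Ribet.H704.I6.SplitAt (R := B) F 𝔭 (algebraMap R B π) m u := by
  intro k
  obtain ⟨g, hg0, hz⟩ := h k
  obtain ⟨a, b, hb, hab⟩ := hloc _ hz
  refine ⟨g, b, a, hb, ?_⟩
  have hπk : algebraMap R F π ^ k ≠ 0 := pow_ne_zero k hπ0
  have hgm : g ^ m ≠ 0 := pow_ne_zero m hg0
  show u * (b : F) = g ^ m * ((b : F) + (algebraMap R F π) ^ k * (a : F))
  rw [← hab]
  field_simp
  ring

variable {A : ValuationSubring (AlgebraicClosure ℚ)}
  {E : IntermediateField ℚ (AlgebraicClosure ℚ)} {M p : ℕ} [NeZero M] [NeZero p] {w : RE A E}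

/-- **Valuation form ⟹ chart form**, for ANY semistable chart of the standard chart algebra. -/
theorem splitAt_chart_of_val (hS : Setting A E M p w) (h3 : p = 3 → 2 ∣ M) (h2 : p = 2 → 3 ∣ M)
    {V : ValuationSubring (FE E (M * p))} (hV : IsVinf A E (M * p) V)
    {W : FE E (M * p) ≃ₐ[E] FE E (M * p)} (hW : IsFricke E (M * p) W)
    (c : A2.SSChart w (chartAlg A E (M * p) (xE E M p))) (u : FE E (M * p))
    (h : ∀ s : ℕ, ∃ g : FE E (M * p), g ≠ 0 ∧
      (u * (g ^ p)⁻¹ - 1) * (cE A E (M * p) w ^ s)⁻¹ ∈ V ∧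
      (u * (g ^ p)⁻¹ - 1) * (cE A E (M * p) w ^ s)⁻¹
        ∈ V.comap (W : FE E (M * p) →+* FE E (M * p))) :
    Fermat.Agent.Ribet.H704.I6.SplitAt (FE E (M * p)) c.p₁
        (algebraMap (RE A E) (chartAlg A E (M * p) (xE E M p)) w) p u ∧
      Fermat.Agent.Ribet.H704.I6.SplitAt (FE E (M * p)) c.p₂
        (algebraMap (RE A E) (chartAlg A E (M * p) (xE E M p)) w) p u := by
  have hw0 : algebraMap (RE A E) (FE E (M * p)) w ≠ 0 := by
    have h0 : w ≠ 0 := hS.unif.ne_zero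
    intro h1
    apply h0
    have h2' : algebraMap E (FE E (M * p)) (w : E) = 0 := h1
    exact Subtype.ext ((map_eq_zero_iff _ (algebraMap E (FE E (M * p))).injective).mp h2')
  have hV₁ : ∀ s : ℕ, ∃ g : FE E (M * p), g ≠ 0 ∧
      (u * (g ^ p)⁻¹ - 1) * (algebraMap (RE A E) (FE E (M * p)) w ^ s)⁻¹ ∈ V := by
    intro s
    obtain ⟨g, hg, h1, -⟩ := h s
    exact ⟨g, hg, h1⟩
  have hV₂ : ∀ s : ℕ, ∃ g : FE E (M * p), g ≠ 0 ∧
      (u * (g ^ p)⁻¹ - 1) * (algebraMap (RE A E) (FE E (M * p)) w ^ s)⁻¹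
        ∈ V.comap (W : FE E (M * p) →+* FE E (M * p)) := by
    intro s
    obtain ⟨g, hg, -, h1⟩ := h s
    exact ⟨g, hg, h1⟩
  rcases Fermat.Agent.Ribet.H862.cutBy_of_isCoordPair hS h3 h2 V W hV hW
      (jE E M 1 (one_dvd _)) (xE E M p) (Or.inl ⟨rfl, rfl⟩)
      (chartAlg A E (M * p) (xE E M p)) (fun f => Iff.rfl) c with hc | hc
  · obtain ⟨hL₁, hL₂⟩ := Fermat.Agent.Ribet.H220.cutLoc A E M p w hS V W hV hW (xE E M p)
      (Or.inl rfl) c.p₁ c.p₂ (fun b => hc.cut₁ b) (fun b => hc.cut₂ b)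
    exact ⟨splitAt_of_val _ c.p₁ V w hw0 hL₁ p u hV₁,
      splitAt_of_val _ c.p₂ _ w hw0 hL₂ p u hV₂⟩
  · obtain ⟨hL₁, hL₂⟩ := Fermat.Agent.Ribet.H220.cutLoc A E M p w hS V W hV hW (xE E M p)
      (Or.inl rfl) c.p₂ c.p₁ (fun b => hc.cut₂ b) (fun b => hc.cut₁ b)
    exact ⟨splitAt_of_val _ c.p₁ _ w hw0 hL₂ p u hV₂,
      splitAt_of_val _ c.p₂ V w hw0 hL₁ p u hV₁⟩

end Chart

/-! ## 6. DEEP-SPLIT, frame form -/

section Frame

variable {p M' : ℕ} [NeZero M'] [NeZero p] [NeZero (p * M')]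

/-- **DEEP-SPLIT** = the fields `hft0`, `hft_div`, `hft_split₁`, `hft_split₂` of
`H704.CoreOut.WildFrame`, under the hypotheses of `H704.CoreOut.WildFrameStatement`, for a
rational Kummer generator `ft` of `t` over a level `E` (`Mod.Setting`, algebraically closed
residue field) whose leading coefficient is a `p`-th power, and ANY semistable chart `c` of
`Mod.chartAlg A E (M' * p) (Mod.xE E M' p)`. -/
theorem deepSplit_frame (hp : p.Prime) (hp5 : 5 ≤ p) (hpM : ¬ p ∣ M')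
    (A : ValuationSubring (AlgebraicClosure ℚ)) (hA : A.LiesOverPrime p)
    (S : Finset ℕ) (a : ℕ → ℤ) (hNE : NonEisAway p a) (x t : JZero (p * M'))
    (hx : IsNewTors p M' x) (ht : IsNewTors p M' t) (het : EigenAt (p * M') S a t)
    (hsh : ∀ σ ∈ A.inertiaSubgroupIn ℚ, ∃ n : ℕ, σ • x = x + n • t)
    (σ₀ : AlgebraicClosure ℚ ≃ₐ[ℚ] AlgebraicClosure ℚ) (hσ₀ : σ₀ ∈ A.inertiaSubgroupIn ℚ)
    (hσ₀x : σ₀ • x ≠ x)
    (E : IntermediateField ℚ (AlgebraicClosure ℚ)) (w : RE A E) (hS : Setting A E M' p w)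
    (hac : IsAlgClosed (IsLocalRing.ResidueField (RE A E)))
    (c : A2.SSChart w (chartAlg A E (M' * p) (xE E M' p)))
    (ft : FE E (M' * p)) (f : FF (p * M')) (hfK : IsKummerGen (p * M') p f t)
    (hfe : (f : LaurentSeries (AlgebraicClosure ℚ))
      = coeffMap (algebraMap E (AlgebraicClosure ℚ)) (ft : LaurentSeries E))
    (e : E) (hlc : (ft : LaurentSeries E).leadingCoeff = e ^ p) :
    ft ≠ 0 ∧ DivisibleDiv E p ft ∧
      Fermat.Agent.Ribet.H704.I6.SplitAt (FE E (M' * p)) c.p₁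
        (algebraMap (RE A E) (chartAlg A E (M' * p) (xE E M' p)) w) p ft ∧
      Fermat.Agent.Ribet.H704.I6.SplitAt (FE E (M' * p)) c.p₂
        (algebraMap (RE A E) (chartAlg A E (M' * p) (xE E M' p)) w) p ft := by
  have hp2 : p ≠ 2 := by omega
  have hp3 : p ≠ 3 := by omega
  obtain ⟨hft0, hdiv⟩ := divisibleDiv_of_kummerGen t E ft f hfK hfe
  obtain ⟨n, hn⟩ := hsh σ₀ hσ₀
  have htS : t ∈ splitPart p M' A :=
    mem_splitPart_of_shear hp hpM A hA x t hx.1 ht.1 σ₀ hσ₀ n hn hσ₀x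
  have hM0 : M' ≠ 0 := NeZero.ne M'
  have hMp0 : M' * p ≠ 0 := mul_ne_zero hM0 hp.ne_zero
  obtain ⟨VM, hVM⟩ := Mod.H553.vinfExists A E M' hM0 hS.dvr
  obtain ⟨V, hV⟩ := Mod.H553.vinfExists A E (M' * p) hMp0 hS.dvr
  obtain ⟨W, hW⟩ := Mod.H553.frickeExists E (M' * p) hMp0
  have hval := fun s => deepSplit_val hp hp2 hpM A hA S a hNE t ht het htS E w hS hac hVM hV hW
    ft f hfK hfe e hlc s
  obtain ⟨h₁, h₂⟩ := splitAt_chart_of_val hS (fun h => absurd h hp3) (fun h => absurd h hp2)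
    hV hW c ft hval
  exact ⟨hft0, hdiv, h₁, h₂⟩

end Frame

end Fermat.Agent.Ribet.H703

end
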